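/-
S55 (Poitou-Tate), block FA: the CONTRACT delivered by the block.
`FACofinalStatement p` replaces `FAStatement p` (which asks the same for ALL `V`): below every `S`-open
`V ≤ G1 p` there is an `S`-open `V'`, normal in `GQ`, for which the image of
`H²(G_{k,S}, μ_p) → ∏_{w | S} H²(k_w, μ_p)` (`k = Qbar^V'`) contains the kernel of a linear form.
Producer: `PT/FA/Main.lean` (`FA.faCofinal`).  Consumer: block BASE.
-/
import Fermat.Agent.PT.Global.Interface2

set_option autoImplicit false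

open ExtCitation
open scoped Pointwise

noncomputable section

namespace Fermat.Agent.PT

variable (p : ℕ) [Fact p.Prime]

/-- (FA), cofinal form. -/
def FACofinalStatement : Prop :=
  ∀ S : Finset Nat.Primes, pPrime p ∈ S → ∀ V : Subgroup GQ, (LS S).IsOpen V → V ≤ G1 p →
    ∃ V' : Subgroup GQ, V' ≤ V ∧ (LS S).IsOpen V' ∧ V'.Normal ∧
      ∀ (ι : Type) [Fintype ι] (𝒜 : ι → Place), IsPlaceSystem S V' 𝒜 →
        ∃ φ : (∀ i, H2 Lall (V' ⊓ Dec (𝒜 i)) (cycRep p)) →ₗ[ZMod p] ZMod p,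
          ∀ y, φ y = 0 → ∃ x : H2 (LS S) V' (cycRep p), ∀ i, loc2 S V' (cycRep p) (𝒜 i) x = y i

end Fermat.Agent.PT

end
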