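/-
S55 block FA, leaf `ClassPow` (number fields only, language of `Fermat/Agent/CFT`): the `h`-th power of every
divisor is principal, `h` the class number.
-/
import Fermat.Agent.CFT.OrdApprox
import Fermat.Agent.CFT.OrdGal

set_option autoImplicit false

open NumberField IsDedekindDomain Fermat.Agent.CFT

noncomputable section

namespace Fermat.Agent.PT.FA

variable {N : Type*} [Field N] [NumberField N]

/-- `v ^ h` is principal (`ClassGroup.mk0`, `pow_card_eq_one'`, `ClassGroup.mk0_eq_one_iff`; pattern: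
`Fermat/Agent/CFT/GenCl.lean`), `= (c)`, `c ≠ 0`; `ord v' c = cnt v' (v ^ h)` (`ord_eq_cnt`), or directly with
`le_ord_iff_mem_pow`, `ord_eq_zero_of_not_mem`. -/
theorem exists_ord_eq_classNumber (v : Pl N) :
    ∃ c : Nˣ, ord v (c : N) = (classNumber N : ℤ) ∧ ∀ v' : Pl N, v' ≠ v → ord v' (c : N) = 0 := by
  classical
  have hv0 : v.asIdeal ∈ nonZeroDivisors (Ideal (𝓞 N)) := mem_nonZeroDivisors_of_ne_zero v.ne_bot
  have hmem : v.asIdeal ^ classNumber N ∈ nonZeroDivisors (Ideal (𝓞 N)) := pow_mem hv0 _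
  have hJ : (⟨v.asIdeal ^ classNumber N, hmem⟩ : nonZeroDivisors (Ideal (𝓞 N))) =
      (⟨v.asIdeal, hv0⟩ : nonZeroDivisors (Ideal (𝓞 N))) ^ classNumber N := rfl
  have hprod : ClassGroup.mk0 (⟨v.asIdeal ^ classNumber N, hmem⟩ :
      nonZeroDivisors (Ideal (𝓞 N))) = 1 := by
    rw [hJ, map_pow]
    exact pow_card_eq_one
  obtain ⟨c, hc⟩ := (ClassGroup.mk0_eq_one_iff hmem).1 hprod
  have hc' : Ideal.span {c} = v.asIdeal ^ classNumber N := hc.symm
  have hc0 : c ≠ 0 := by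
    rintro rfl
    have h0 : v.asIdeal ^ classNumber N = ⊥ := by rw [← hc']; simp
    exact v.ne_bot (pow_eq_zero_iff (classNumber_ne_zero N) |>.1 h0)
  have hcN : (c : N) ≠ 0 := by simpa using hc0
  have hcnt : ∀ w : Pl N, OrdApprox.cnt w (v.asIdeal ^ classNumber N) =
      classNumber N * OrdApprox.cnt w v.asIdeal := by
    intro w
    have := OrdApprox.cnt_prod w (Finset.range (classNumber N)) (fun _ => v)
    simpa using this
  refine ⟨Units.mk0 (c : N) hcN, ?_, fun v' hne => ?_⟩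
  · show ord v (c : N) = _
    rw [OrdApprox.ord_eq_cnt v hc0, hc', hcnt, OrdApprox.cnt_self, mul_one]
  · show ord v' (c : N) = _
    rw [OrdApprox.ord_eq_cnt v' hc0, hc', hcnt, OrdApprox.cnt_of_ne hne.symm, mul_zero]
    rfl

/-- `a := ∏ w ∈ support, c_w ^ 𝔡 w` (`ord_prod`/`ordHom`, `ord_zpow`). -/
theorem exists_ord_eq_classNumber_mul (𝔡 : Pl N → ℤ) (h𝔡 : (Function.support 𝔡).Finite) :
    ∃ a : Nˣ, ∀ w : Pl N, ord w (a : N) = (classNumber N : ℤ) * 𝔡 w := by
  classical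
  choose c hc1 hc2 using exists_ord_eq_classNumber (N := N)
  refine ⟨∏ v ∈ h𝔡.toFinset, c v ^ 𝔡 v, fun w => ?_⟩
  rw [Units.coe_prod, ord_prod w _ _ (fun i _ => Units.ne_zero _)]
  have hterm : ∀ v : Pl N, ord w ((c v ^ 𝔡 v : Nˣ) : N) = 𝔡 v * ord w (c v : N) := by
    intro v
    rw [Units.val_zpow_eq_zpow_val, ord_zpow]
  simp only [hterm]
  by_cases hw : w ∈ h𝔡.toFinset
  · rw [Finset.sum_eq_single w]
    · rw [hc1, mul_comm]
    · intro v _ hvw
      rw [hc2 v w (Ne.symm hvw), mul_zero]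
    · intro h; exact absurd hw h
  · have hw0 : 𝔡 w = 0 := by
      by_contra h
      exact hw (h𝔡.mem_toFinset.2 h)
    rw [hw0, mul_zero]
    refine Finset.sum_eq_zero fun v hv => ?_
    have hvw : w ≠ v := fun h => hw (h ▸ hv)
    rw [hc2 v w hvw, mul_zero]

end Fermat.Agent.PT.FA

end
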