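/-
S55 block FA: DEFINITIONS shared by the concrete leaves.

Set-up of the block (same conventions as block K = `PT/Koch`, whose API `Koch.SN`, `Koch.emb`, `Koch/Levels`,
`Koch/PlaceSys`, `Koch/KumApi` we reuse):
* `N ⊆ N' ⊆ Qbar` number fields (`[Algebra N Qbar] [Algebra N' Qbar] [Algebra N N'] [IsScalarTower N N' Qbar]`),
  `N'/N` Galois of degree `p`, `ζ_p ∈ N`, `Vof N' ≤ Vof N ≤ GQ` are `(LS S)`-open;
* `x ∈ Z1 (LS S) (Vof N) (trivZ p GQ)` the character cocycle with `kerOf (Vof N) x = Vof N'`;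
* `kummerQbar p : KummerSetup Lall p multRep (cycRep p) (iotaP p)` (`PT/B/Galois.lean`).

* `co a : Qbar`        : the element of `Qbar` underlying `a : Additive Qbarˣ`;
* `InS S y`            : `y ∈ Qbar` is fixed by all inertia groups outside `S` (⇔ `y ∈ Q_S`, see `QS.lean`);
* `PDiv p 𝒜 y`         : "`p ∣ ord_𝒜 y`" (`ord_𝒜` normalised on the maximal extension unramified at `𝒜`);
* `HasOrd N' h y n`    : "`ord_𝒜 y = n`", `ord_𝒜` normalised on `N'`.
-/
import Fermat.Agent.PT.Koch.Defs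
import Fermat.Agent.PT.Koch.Levels
import Fermat.Agent.PT.Hens.Restrict

set_option autoImplicit false

open NumberField IsDedekindDomain Fermat.Agent.CFT ExtCitation
open scoped Pointwise

noncomputable section

namespace Fermat.Agent.PT.FA

/-- the element of `Qbar` underlying `a : Additive Qbarˣ`. -/
def co (a : Additive Qbarˣ) : Qbar := ((Additive.toMul a : Qbarˣ) : Qbar)

@[simp] theorem co_ofMul (y : Qbarˣ) : co (Additive.ofMul y) = (y : Qbar) := rfl

theorem co_ne_zero (a : Additive Qbarˣ) : co a ≠ 0 := Units.ne_zero _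

@[simp] theorem co_zero : co 0 = 1 := rfl

@[simp] theorem co_add (a b : Additive Qbarˣ) : co (a + b) = co a * co b := rfl

@[simp] theorem co_neg (a : Additive Qbarˣ) : co (-a) = (co a)⁻¹ := by
  simp [co]

@[simp] theorem co_sub (a b : Additive Qbarˣ) : co (a - b) = co a / co b := by
  rw [sub_eq_add_neg, co_add, co_neg, div_eq_mul_inv]

@[simp] theorem co_nsmul (n : ℕ) (a : Additive Qbarˣ) : co (n • a) = co a ^ n := by
  simp [co]

@[simp] theorem co_multRep (g : GQ) (a : Additive Qbarˣ) : co (multRep g a) = g (co a) := rfl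

theorem co_injective : Function.Injective co := fun _ _ h =>
  Additive.toMul.injective (Units.ext h)

@[simp] theorem co_emb {N : Type*} [Field N] [NumberField N] [Algebra N Qbar] (b : Nˣ) :
    co (Koch.emb b) = algebraMap N Qbar b := rfl

/-- `y` is fixed by all the inertia groups at the finite places outside `S`. -/
def InS (S : Finset Nat.Primes) (y : Qbar) : Prop :=
  ∀ 𝒜 : Place, 𝒜.IsFin → ¬ 𝒜.OverS S → ∀ i ∈ Ine 𝒜, i y = y

/-- "`p ∣ ord_𝒜 y`". -/
def PDiv (p : ℕ) (𝒜 : Place) (y : Qbar) : Prop :=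
  ∃ δ : Qbar, δ ≠ 0 ∧ (∀ i ∈ Ine 𝒜, i δ = δ) ∧ 𝒜.valuation y = 𝒜.valuation (δ ^ p)

/-- "`ord_𝒜 y = n`", normalised on the number field `N'`. -/
def HasOrd (N' : Type*) [Field N'] [NumberField N'] [Algebra N' Qbar] {𝒜 : Place} (h : 𝒜.IsFin)
    (y : Qbar) (n : ℤ) : Prop :=
  ∃ ϖ : N'ˣ, ord (plOf N' 𝒜 h) (ϖ : N') = n ∧ 𝒜.valuation y = 𝒜.valuation (algebraMap N' Qbar ϖ)

end Fermat.Agent.PT.FA

end
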