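/-
S55 block FA, leaf `HasOrd`: calculus of `HasOrd N' h y n` ("`ord_𝒜 y = n`", normalised on `N'`).
-/
import Fermat.Agent.PT.FA.Defs
import Fermat.Agent.PT.Arith.NLBasic

set_option autoImplicit false

open NumberField IsDedekindDomain Fermat.Agent.CFT ExtCitation
open scoped Pointwise

noncomputable section

namespace Fermat.Agent.PT.FA

variable {N' : Type*} [Field N'] [NumberField N'] [Algebra N' Qbar] {𝒜 : Place} {h : 𝒜.IsFin}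
  {y y' : Qbar} {n n' : ℤ}

theorem hasOrd_algebraMap (h : 𝒜.IsFin) (ϖ : N'ˣ) :
    HasOrd N' h (algebraMap N' Qbar ϖ) (ord (plOf N' 𝒜 h) (ϖ : N')) :=
  ⟨ϖ, rfl, rfl⟩

/-- (`ord_mul`, `map_mul`.) -/
theorem HasOrd.mul (hy : HasOrd N' h y n) (hy' : HasOrd N' h y' n') :
    HasOrd N' h (y * y') (n + n') := by
  obtain ⟨ϖ, h1, h2⟩ := hy
  obtain ⟨ϖ', h1', h2'⟩ := hy'
  refine ⟨ϖ * ϖ', ?_, ?_⟩
  · rw [Units.val_mul, ord_mul _ ϖ.ne_zero ϖ'.ne_zero, h1, h1']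
  · rw [Units.val_mul, map_mul, map_mul, map_mul, h2, h2']

/-- (`ord_inv`, `map_inv₀`.) -/
theorem HasOrd.inv (hy : HasOrd N' h y n) : HasOrd N' h y⁻¹ (-n) := by
  obtain ⟨ϖ, h1, h2⟩ := hy
  refine ⟨ϖ⁻¹, ?_, ?_⟩
  · rw [Units.val_inv_eq_inv_val, ord_inv, h1]
  · rw [Units.val_inv_eq_inv_val, map_inv₀, map_inv₀, map_inv₀, h2]

theorem HasOrd.div (hy : HasOrd N' h y n) (hy' : HasOrd N' h y' n') :
    HasOrd N' h (y / y') (n - n') := by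
  rw [div_eq_mul_inv, sub_eq_add_neg]
  exact hy.mul hy'.inv

theorem HasOrd.pow (hy : HasOrd N' h y n) (k : ℕ) : HasOrd N' h (y ^ k) (k * n) := by
  obtain ⟨ϖ, h1, h2⟩ := hy
  refine ⟨ϖ ^ k, ?_, ?_⟩
  · rw [Units.val_pow_eq_pow_val, ord_pow, h1]
  · rw [Units.val_pow_eq_pow_val, map_pow, map_pow, map_pow, h2]

/-- `ϖ₀ ∈ N'ˣ` with `ord ϖ₀ = 1` (`Arith.exists_unit_ord_eq_one`), `n = p m`, `δ := algebraMap ϖ₀ ^ m` (zpow):
fixed by `Ine 𝒜 ≤ Vof N'`;  `ord (ϖ₀ ^ m) ^ p = n = ord ϖ`, so the valuations agree (`ord_plOf_eq_iff`). -/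
theorem HasOrd.pDiv {p : ℕ} (hI : Ine 𝒜 ≤ Vof N') (hy : HasOrd N' h y n) (hn : (p : ℤ) ∣ n) :
    PDiv p 𝒜 y := by
  obtain ⟨ϖ, h1, h2⟩ := hy
  obtain ⟨m, rfl⟩ := hn
  obtain ⟨ϖ₀, h0⟩ := Arith.exists_unit_ord_eq_one (plOf N' 𝒜 h)
  have hne : ((ϖ₀ : N') ^ m) ≠ 0 := zpow_ne_zero _ ϖ₀.ne_zero
  refine ⟨algebraMap N' Qbar ((ϖ₀ : N') ^ m), (map_ne_zero _).mpr hne, ?_, ?_⟩
  · intro i hi
    exact hI hi _
  · rw [h2, ← map_pow, ← ord_plOf_eq_iff h ϖ.ne_zero (pow_ne_zero _ hne), h1, ord_pow, ord_zpow, h0,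
      mul_one]

variable {N : Type*} [Field N] [NumberField N] [Algebra N Qbar] [Algebra N N']
  [IsScalarTower N N' Qbar] [IsGalois N N']

/-- (`plOf_smul` for `g⁻¹`, `map_inv`.) -/
theorem plOf_inv_smul (h : 𝒜.IsFin) {g : GQ} (hg : g ∈ Vof N) :
    plOf N' (g⁻¹ • 𝒜) (h.smul g⁻¹) = (resHom N N' ⟨g, hg⟩)⁻¹ • plOf N' 𝒜 h := by
  rw [← map_inv]
  exact plOf_smul h (⟨g, hg⟩⁻¹ : Vof N)

/-- equal valuations are transported by Galois elements. -/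
theorem valuation_inv_smul_eq_iff (g : GQ) (𝒜 : Place) (a b : Qbar) :
    (g⁻¹ • 𝒜).valuation a = (g⁻¹ • 𝒜).valuation b ↔ 𝒜.valuation (g a) = 𝒜.valuation (g b) := by
  have key : ∀ a b : Qbar, (g⁻¹ • 𝒜).valuation a ≤ (g⁻¹ • 𝒜).valuation b ↔
      𝒜.valuation (g a) ≤ 𝒜.valuation (g b) := by
    intro a b
    by_cases hb : b = 0
    · subst hb
      simp
    have hgb : g b ≠ 0 := (map_ne_zero _).mpr hb
    have e1 : (g⁻¹ • 𝒜).valuation a ≤ (g⁻¹ • 𝒜).valuation b ↔ a / b ∈ g⁻¹ • 𝒜 := by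
      rw [← ValuationSubring.valuation_le_one_iff, map_div₀,
        div_le_one₀ (zero_lt_iff.mpr ((Valuation.ne_zero_iff _).mpr hb))]
    have e2 : 𝒜.valuation (g a) ≤ 𝒜.valuation (g b) ↔ g a / g b ∈ 𝒜 := by
      rw [← ValuationSubring.valuation_le_one_iff, map_div₀,
        div_le_one₀ (zero_lt_iff.mpr ((Valuation.ne_zero_iff _).mpr hgb))]
    rw [e1, e2, mem_smul_place_iff, inv_inv, map_div₀]
  rw [le_antisymm_iff, le_antisymm_iff, key, key]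

/-- transport by `g ∈ Vof N`: `ϖ ↦ resHom N N' ⟨g, hg⟩ ϖ` (`resHom_spec`, `plOf_inv_smul`, `ord_smul'`);
`(g⁻¹ • 𝒜).valuation y = (g⁻¹ • 𝒜).valuation y' ↔ 𝒜.valuation (g y) = 𝒜.valuation (g y')`
(equal valuations ⇔ the quotient and its inverse are in the valuation ring; `mem_smul_place_iff`). -/
theorem HasOrd.apply (h : 𝒜.IsFin) {g : GQ} (hg : g ∈ Vof N) (hy : HasOrd N' (h.smul g⁻¹) y n) :
    HasOrd N' h (g y) n := by
  obtain ⟨ϖ, h1, h2⟩ := hy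
  refine ⟨Units.map (resHom N N' ⟨g, hg⟩ : N' ≃ₐ[N] N').toRingEquiv.toRingHom.toMonoidHom ϖ, ?_, ?_⟩
  · change ord (plOf N' 𝒜 h) ((resHom N N' ⟨g, hg⟩) • (ϖ : N')) = n
    rw [ord_smul', ← plOf_inv_smul h hg, h1]
  · change 𝒜.valuation (g y) = 𝒜.valuation (algebraMap N' Qbar (resHom N N' ⟨g, hg⟩ (ϖ : N')))
    rw [resHom_spec]
    exact (valuation_inv_smul_eq_iff g 𝒜 _ _).mp h2

/-- elements of `N`. -/
theorem hasOrd_emb (h : 𝒜.IsFin) (b : Nˣ) :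
    HasOrd N' h (algebraMap N Qbar b) (ord (plOf N' 𝒜 h) (algebraMap N N' (b : N))) := by
  refine ⟨Units.map (algebraMap N N').toMonoidHom b, rfl, ?_⟩
  change _ = 𝒜.valuation (algebraMap N' Qbar (algebraMap N N' (b : N)))
  rw [← IsScalarTower.algebraMap_apply N N' Qbar]

end Fermat.Agent.PT.FA

end
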