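/-
S55 block FA, leaf `QS`: `InS S y` ⇔ `y` is fixed by a level of `LS S`; stability properties.
-/
import Fermat.Agent.PT.FA.Defs

set_option autoImplicit false

open NumberField IsDedekindDomain Fermat.Agent.CFT ExtCitation
open scoped Pointwise

noncomputable section

namespace Fermat.Agent.PT.FA

variable {S : Finset Nat.Primes} {y y' : Qbar}

/-- (`Koch.Ine_le_of_isOpen_LS`.) -/
theorem inS_of_fixed {W : Subgroup GQ} (hW : (LS S).IsOpen W) (hy : ∀ w ∈ W, w y = y) : InS S y :=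
  fun _ hfin hS i hi => hy i (Koch.Ine_le_of_isOpen_LS hW hfin hS hi)

/-- `F := IntermediateField.adjoin ℚ {y}` is finite dimensional and `F.IsUnramifiedOutside S`: for `q ∉ S`,
`A` over `q`, `i ∈ A.inertiaSubgroupIn ℚ` fixes `y` (`hy A ⟨q, _⟩ _`; `A` is not over `S`: a place lies over only
one prime, `Fermat.Agent.Lib.Frobenius`/`CFT.over_unique`-type lemma, or: if `q, q'` are distinct primes in
`A.nonunits` then `1 = a q + b q' ∈ A.nonunits`), hence fixes `F` (`IntermediateField.adjoin_le_iff` applied to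
`IntermediateField.fixedField (Subgroup.zpowers i)`, or `AlgHom`-ext on `adjoin_simple`).
Then `isOpen_LS_of_isUnramifiedOutside` (`PT/Bridge/GalLevels.lean`). -/
theorem InS.exists_level (hy : InS S y) : ∃ U ∈ LS S, ∀ u ∈ U, u y = y := by
  have hfd : FiniteDimensional ℚ (IntermediateField.adjoin ℚ {y}) :=
    IntermediateField.adjoin.finiteDimensional (Algebra.IsIntegral.isIntegral y)
  have hfix : ∀ g : GQ, g y = y → g ∈ (IntermediateField.adjoin ℚ {y}).fixingSubgroup := by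
    intro g hg
    have hle : IntermediateField.adjoin ℚ {y} ≤
        IntermediateField.fixedField (Subgroup.zpowers g) := by
      rw [IntermediateField.adjoin_le_iff]
      intro z hz
      rw [Set.mem_singleton_iff] at hz
      subst hz
      rw [SetLike.mem_coe, IntermediateField.mem_fixedField_iff]
      intro f hf
      obtain ⟨n, rfl⟩ := Subgroup.mem_zpowers_iff.1 hf
      have hstab : g ∈ MulAction.stabilizer GQ z := hg
      exact (MulAction.stabilizer GQ z).zpow_mem hstab n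
    rw [IntermediateField.mem_fixingSubgroup_iff]
    intro z hz
    exact (IntermediateField.mem_fixedField_iff _ z).1 (hle hz) g (Subgroup.mem_zpowers g)
  have hopen : (LS S).IsOpen (IntermediateField.adjoin ℚ {y}).fixingSubgroup :=
    Koch.isOpen_LS_of_inertia (isOpen_Lall_of_finiteDimensional hfd)
      fun 𝒜 hfin hS i hi => hfix i (hy 𝒜 hfin hS i hi)
  obtain ⟨U, hU, hle⟩ := hopen
  refine ⟨U, hU, fun u hu => ?_⟩
  exact (IntermediateField.mem_fixingSubgroup_iff _ u).1 (hle hu) y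
    (IntermediateField.mem_adjoin_simple_self ℚ y)

/-- `i (g y) = g ((g⁻¹ i g) y)` and `g⁻¹ i g ∈ Ine (g⁻¹ • 𝒜)` (`Koch.conj_mem_Ine g⁻¹`),
`(g⁻¹ • 𝒜).IsFin` (`Place.IsFin.smul`), not over `S` (`liesOverPrime_smul_iff`). -/
theorem InS.apply (hy : InS S y) (g : GQ) : InS S (g y) := by
  intro 𝒜 hfin hS i hi
  have h1 : g⁻¹ * i * g⁻¹⁻¹ ∈ Ine (g⁻¹ • 𝒜) := Koch.conj_mem_Ine g⁻¹ hi
  have h2 : ¬ (g⁻¹ • 𝒜).OverS S := by
    rintro ⟨q, hq, h⟩
    exact hS ⟨q, hq, (liesOverPrime_smul_iff g⁻¹ 𝒜 q).1 h⟩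
  have h3 := hy (g⁻¹ • 𝒜) (hfin.smul g⁻¹) h2 _ h1
  rw [inv_inv] at h3
  have h4 : g ((g⁻¹ * i * g) y) = g y := congrArg g h3
  have h5 : g ((g⁻¹ * i * g) y) = (g * (g⁻¹ * i * g)) y := rfl
  rw [h5, mul_assoc, mul_inv_cancel_left] at h4
  exact h4

theorem InS.mul (hy : InS S y) (hy' : InS S y') : InS S (y * y') := by
  intro 𝒜 hfin hS i hi
  rw [map_mul, hy 𝒜 hfin hS i hi, hy' 𝒜 hfin hS i hi]

theorem InS.inv (hy : InS S y) : InS S y⁻¹ := by
  intro 𝒜 hfin hS i hi
  rw [map_inv₀, hy 𝒜 hfin hS i hi]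

theorem InS.div (hy : InS S y) (hy' : InS S y') : InS S (y / y') := by
  rw [div_eq_mul_inv]
  exact hy.mul hy'.inv

theorem InS.pow (hy : InS S y) (n : ℕ) : InS S (y ^ n) := by
  intro 𝒜 hfin hS i hi
  rw [map_pow, hy 𝒜 hfin hS i hi]

/-- elements of a number field `N` with `Vof N` `S`-open. -/
theorem inS_algebraMap {N : Type*} [Field N] [Algebra N Qbar] (hN : (LS S).IsOpen (Vof N)) (a : N) :
    InS S (algebraMap N Qbar a) :=
  inS_of_fixed hN fun _ hw => hw a

/-- additive version of `InS.exists_level`. -/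
theorem exists_level_multRep {a : Additive Qbarˣ} (ha : InS S (co a)) :
    ∃ U ∈ LS S, ∀ u ∈ U, multRep u a = a := by
  obtain ⟨U, hU, h⟩ := ha.exists_level
  refine ⟨U, hU, fun u hu => co_injective ?_⟩
  rw [co_multRep]
  exact h u hu

end Fermat.Agent.PT.FA

end
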