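/-
S55 block FA, leaf `UnramRoot`: UNRAMIFIED ROOTS.  If `a ∈ Q_S^×` has "`p ∣ ord_𝒜 a`" for all finite `𝒜` outside
`S ∋ p`, then every `p`-th root of `a` lies in `Q_S`.
-/
import Fermat.Agent.PT.FA.QS
import Fermat.Agent.PT.Hens.Kummer

set_option autoImplicit false
set_option linter.unusedSectionVars false

open NumberField IsDedekindDomain Fermat.Agent.CFT ExtCitation
open scoped Pointwise

noncomputable section

namespace Fermat.Agent.PT.FA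

variable {S : Finset Nat.Primes} {p : ℕ} [Fact p.Prime] {𝒜 : Place}

/-- Induction on `j` from `apply_eq_of_mem_Ine_of_pow_unit` (`PT/Hens/Kummer.lean`):
`β ^ p ^ (j+1) = (β ^ p ^ j) ^ p`, all powers of `β` have valuation `1`. -/
theorem apply_eq_of_pow_pow_unit (hp : ¬ 𝒜.LiesOverPrime p) {g : GQ} (hg : g ∈ Ine 𝒜) (j : ℕ)
    {β : Qbar} (hβ : 𝒜.valuation β = 1) (hfix : g (β ^ p ^ j) = β ^ p ^ j) : g β = β := by
  induction j with
  | zero => simpa using hfix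
  | succ j ih =>
    apply ih
    refine apply_eq_of_mem_Ine_of_pow_unit hp hg ?_ ?_
    · rw [map_pow, map_pow, hβ, one_pow, one_pow]
    · rw [← pow_mul, ← pow_succ]
      exact hfix

/-- `c ^ p ^ j = a`, `a` fixed by `g ∈ Ine 𝒜`, `δ ≠ 0` fixed by `g`, `|a| = |δ ^ p ^ j|` ⇒ `g c = c` and `|c| = |δ|`.
(`β := c / δ`: `|β| ^ p ^ j = 1` so `|β| = 1` (`pow_eq_one_iff` in a linearly ordered group with zero),
`β ^ p ^ j = a / δ ^ p ^ j` is fixed by `g`; `apply_eq_of_pow_pow_unit`.) -/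
theorem apply_eq_of_pow_pow_eq (hp : ¬ 𝒜.LiesOverPrime p) {g : GQ} (hg : g ∈ Ine 𝒜) (j : ℕ)
    {a c δ : Qbar} (hδ0 : δ ≠ 0) (hc : c ^ p ^ j = a) (ha : g a = a) (hδ : g δ = δ)
    (hval : 𝒜.valuation a = 𝒜.valuation (δ ^ p ^ j)) :
    g c = c ∧ 𝒜.valuation c = 𝒜.valuation δ := by
  have hp0 : p ^ j ≠ 0 := pow_ne_zero _ (Fact.out : p.Prime).ne_zero
  have hvδ : 𝒜.valuation δ ≠ 0 := (Valuation.ne_zero_iff _).mpr hδ0
  have hβ : 𝒜.valuation (c / δ) = 1 := by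
    have h1 : 𝒜.valuation (c / δ) ^ p ^ j = 1 := by
      rw [← map_pow, div_pow, hc, map_div₀, hval]
      exact div_self ((Valuation.ne_zero_iff _).mpr (pow_ne_zero _ hδ0))
    exact (pow_eq_one_iff.mp h1).resolve_right hp0
  have hfix : g ((c / δ) ^ p ^ j) = (c / δ) ^ p ^ j := by
    rw [div_pow, hc, map_div₀, ha, map_pow, hδ]
  have h2 := apply_eq_of_pow_pow_unit hp hg j hβ hfix
  constructor
  · rw [map_div₀, hδ] at h2
    exact (div_left_inj' hδ0).mp h2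
  · rw [map_div₀] at hβ
    exact (div_eq_one_iff_eq hvδ).mp hβ

omit [Fact p.Prime] in
/-- valuations at `g • 𝒜` of `g`-translates (inequalities). -/
theorem UnramRoot_val_le_iff (g : GQ) (y y' : Qbar) :
    (g • 𝒜).valuation (g y) ≤ (g • 𝒜).valuation (g y') ↔ 𝒜.valuation y ≤ 𝒜.valuation y' := by
  have key : ∀ (ℬ : Place) (z z' : Qbar), z' ≠ 0 →
      (ℬ.valuation z ≤ ℬ.valuation z' ↔ z / z' ∈ ℬ) := by
    intro ℬ z z' hz'
    have hv : 0 < ℬ.valuation z' := zero_lt_iff.mpr ((Valuation.ne_zero_iff _).mpr hz')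
    rw [← ℬ.valuation_le_one_iff, map_div₀, div_le_one₀ hv]
  by_cases hy' : y' = 0
  · subst hy'
    simp
  · have hgy' : g y' ≠ 0 := by simpa using hy'
    rw [key _ _ _ hy', key _ _ _ hgy', mem_smul_place_iff, ← map_div₀]
    have : g⁻¹ (g (y / y')) = y / y' := AlgEquiv.symm_apply_apply g _
    rw [this]

omit [Fact p.Prime] in
/-- valuations at `g • 𝒜` of `g`-translates. -/
theorem UnramRoot_val_eq_iff (g : GQ) (y y' : Qbar) :
    (g • 𝒜).valuation (g y) = (g • 𝒜).valuation (g y') ↔ 𝒜.valuation y = 𝒜.valuation y' := by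
  rw [le_antisymm_iff, le_antisymm_iff, UnramRoot_val_le_iff, UnramRoot_val_le_iff]

/-- transport of `PDiv` by `g ∈ GQ`: `δ ↦ g δ`; `i ∈ Ine (g • 𝒜)` ⇒ `g⁻¹ i g ∈ Ine 𝒜`
(`Koch.conj_mem_Ine g⁻¹`, `inv_smul_smul`);
`(g • 𝒜).valuation (g y) = (g • 𝒜).valuation (g y') ↔ 𝒜.valuation y = 𝒜.valuation y'`
(valuations are equal iff the quotient is a unit of the valuation ring; `mem_smul_place_iff`). -/
theorem PDiv.apply {y : Qbar} (h : PDiv p 𝒜 y) (g : GQ) : PDiv p (g • 𝒜) (g y) := by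
  obtain ⟨δ, hδ0, hδ, hv⟩ := h
  refine ⟨g δ, ?_, ?_, ?_⟩
  · simpa using hδ0
  · intro i hi
    have h1 := Koch.conj_mem_Ine g⁻¹ hi
    rw [inv_smul_smul, inv_inv] at h1
    have h2 := hδ _ h1
    have h3 : g ((g⁻¹ * i * g) δ) = i (g δ) := by
      change g (g⁻¹ (i (g δ))) = i (g δ)
      exact AlgEquiv.apply_symm_apply g _
    rw [← h3, h2]
  · rw [← map_pow]
    exact (UnramRoot_val_eq_iff g _ _).mpr hv

/-- **Unramified roots.**  (`apply_eq_of_pow_pow_eq` with `j = 1`, `Koch.not_liesOverPrime_of_not_overS`.) -/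
theorem inS_of_pow_eq (hpS : pPrime p ∈ S) {a β : Qbar} (ha : InS S a)
    (hdiv : ∀ 𝒜 : Place, 𝒜.IsFin → ¬ 𝒜.OverS S → PDiv p 𝒜 a) (hβ : β ^ p = a) : InS S β := by
  intro 𝒜 hfin hS i hi
  obtain ⟨δ, hδ0, hδ, hv⟩ := hdiv 𝒜 hfin hS
  exact (apply_eq_of_pow_pow_eq (Koch.not_liesOverPrime_of_not_overS hpS hS) hi 1 hδ0
    (by rw [pow_one]; exact hβ) (ha 𝒜 hfin hS i hi) (hδ i hi) (by rw [pow_one]; exact hv)).1

/-- the hypothesis of `inS_of_pow_eq` is stable under `GQ`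
(`PDiv.apply` at the place `g⁻¹ • 𝒜`, `smul_inv_smul`). -/
theorem pDiv_apply_of_forall {a : Qbar}
    (hdiv : ∀ 𝒜 : Place, 𝒜.IsFin → ¬ 𝒜.OverS S → PDiv p 𝒜 a) (g : GQ) :
    ∀ 𝒜 : Place, 𝒜.IsFin → ¬ 𝒜.OverS S → PDiv p 𝒜 (g a) := by
  intro 𝒜 hfin hS
  have h1 : PDiv p (g⁻¹ • 𝒜) a := by
    refine hdiv _ (hfin.smul _) ?_
    rintro ⟨q, hq, hq'⟩
    exact hS ⟨q, hq, (liesOverPrime_smul_iff _ _ _).mp hq'⟩
  have h2 := h1.apply g
  rwa [smul_inv_smul] at h2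

end Fermat.Agent.PT.FA

end
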