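/-
S55 block FA, leaf `Capit`: CAPITULATION in `Q_S`.  Every divisor `𝔡` of `N'` becomes, up to a factor `h'` prime to
`p`, the divisor outside `S` of an element `c₀ ∈ Q_S^×`.
-/
import Fermat.Agent.PT.FA.ClassPow
import Fermat.Agent.PT.FA.UnramRoot
import Fermat.Agent.PT.FA.HasOrd

set_option autoImplicit false

open NumberField IsDedekindDomain Fermat.Agent.CFT ExtCitation
open scoped Pointwise

noncomputable section

namespace Fermat.Agent.PT.FA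

variable {S : Finset Nat.Primes} {p : ℕ} [Fact p.Prime]
  {N' : Type*} [Field N'] [NumberField N'] [Algebra N' Qbar]

/-- PROOF.  `classNumber N' = p ^ j * h'`, `¬ p ∣ h'` (`Nat.exists_eq_pow_mul_and_not_dvd`, `classNumber ≠ 0`).
`a : N'ˣ` with `ord w a = classNumber * 𝔡 w` (`exists_ord_eq_classNumber_mul`).  `c` with
`c ^ p ^ j = algebraMap a` (`IsAlgClosed.exists_pow_nat_eq`), `c ≠ 0`.
For `𝒜` finite outside `S`, `w := plOf N' 𝒜 h`, `ϖ₀ : N'ˣ` with `ord w ϖ₀ = 1` (`Arith.exists_unit_ord_eq_one`),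
`ϖ := ϖ₀ ^ (h' * 𝔡 w)`, `δ := algebraMap ϖ`: `ord w (ϖ ^ p ^ j) = ord w a`, so `|a| = |δ ^ p ^ j|`
(`ord_plOf_eq_iff`); `a`, `δ` are fixed by `Ine 𝒜 ≤ Vof N'` (`Koch.Ine_le_of_isOpen_LS`);
`apply_eq_of_pow_pow_eq` gives `i c = c` for `i ∈ Ine 𝒜` and `|c| = |δ|`, i.e. `HasOrd N' h c (h' * 𝔡 w)`. -/
theorem exists_capit (hpS : pPrime p ∈ S) (hopen : (LS S).IsOpen (Vof N')) (𝔡 : Pl N' → ℤ)
    (h𝔡 : (Function.support 𝔡).Finite) :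
    ∃ (h' : ℕ) (c₀ : Qbarˣ), ¬ p ∣ h' ∧ InS S (c₀ : Qbar) ∧
      ∀ (𝒜 : Place) (h : 𝒜.IsFin), ¬ 𝒜.OverS S →
        HasOrd N' h (c₀ : Qbar) (h' * 𝔡 (plOf N' 𝒜 h)) := by
  have hp : p.Prime := Fact.out
  have hcl0 : classNumber N' ≠ 0 := (classNumber_pos N').ne'
  obtain ⟨j, h', hh', hjh⟩ := Nat.exists_eq_pow_mul_and_not_dvd hcl0 p hp.ne_one
  obtain ⟨a, ha⟩ := exists_ord_eq_classNumber_mul 𝔡 h𝔡
  have hpj : 0 < p ^ j := pow_pos hp.pos j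
  obtain ⟨c, hc⟩ := IsAlgClosed.exists_pow_nat_eq (algebraMap N' Qbar (a : N')) hpj
  have ha0 : algebraMap N' Qbar (a : N') ≠ 0 := (map_ne_zero _).mpr a.ne_zero
  have hc0 : c ≠ 0 := by
    rintro rfl
    rw [zero_pow hpj.ne'] at hc
    exact ha0 hc.symm
  -- the local analysis
  have key : ∀ (𝒜 : Place) (h : 𝒜.IsFin), ¬ 𝒜.OverS S →
      (∀ i ∈ Ine 𝒜, i c = c) ∧ HasOrd N' h c (h' * 𝔡 (plOf N' 𝒜 h)) := by
    intro 𝒜 h hS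
    have hI : Ine 𝒜 ≤ Vof N' := Koch.Ine_le_of_isOpen_LS hopen h hS
    have hnp : ¬ 𝒜.LiesOverPrime p := Koch.not_liesOverPrime_of_not_overS hpS hS
    obtain ⟨ϖ₀, hϖ₀⟩ := Arith.exists_unit_ord_eq_one (plOf N' 𝒜 h)
    set ϖ : N'ˣ := ϖ₀ ^ ((h' : ℤ) * 𝔡 (plOf N' 𝒜 h)) with hϖ
    have hordϖ : ord (plOf N' 𝒜 h) (ϖ : N') = (h' : ℤ) * 𝔡 (plOf N' 𝒜 h) := by
      rw [hϖ, Units.val_zpow_eq_zpow_val, ord_zpow, hϖ₀, mul_one]
    have hδ0 : algebraMap N' Qbar (ϖ : N') ≠ 0 := (map_ne_zero _).mpr ϖ.ne_zero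
    have hval : 𝒜.valuation (algebraMap N' Qbar (a : N')) =
        𝒜.valuation (algebraMap N' Qbar (ϖ : N') ^ p ^ j) := by
      rw [← map_pow, ← ord_plOf_eq_iff h a.ne_zero (pow_ne_zero _ ϖ.ne_zero), ha, ord_pow, hordϖ, hjh]
      push_cast
      ring
    have hone : 𝒜.valuation c = 𝒜.valuation (algebraMap N' Qbar (ϖ : N')) :=
      (apply_eq_of_pow_pow_eq hnp (one_mem _) j hδ0 hc rfl rfl hval).2
    refine ⟨fun i hi => ?_, ϖ, hordϖ, hone⟩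
    exact (apply_eq_of_pow_pow_eq hnp hi j hδ0 hc (hI hi _) (hI hi _) hval).1
  exact ⟨h', Units.mk0 c hc0, hh', fun 𝒜 h hS => (key 𝒜 h hS).1, fun 𝒜 h hS => (key 𝒜 h hS).2⟩

end Fermat.Agent.PT.FA

end
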