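/-
S55 block FA, leaf `Count` (ABSTRACT, Mathlib only): a subgroup of index `≤ p` of a finite `F_p`-vector space
contains the kernel of a linear form.
-/
import Mathlib

set_option autoImplicit false

namespace Fermat.Agent.PT.FA

variable {p : ℕ} [Fact p.Prime]

/-- A subspace `W` with `|Y| ≤ |W| p` contains the kernel of a linear form.
(`Y ⧸ W` has at most `p` elements (`Submodule.card_eq_card_quotient_mul_card`), so `finrank ≤ 1`
(`Module.card_eq_pow_finrank`), so there is an injective linear map `Y ⧸ W → ZMod p`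
(e.g. `LinearMap.exists_injective_of_finrank_le`-type lemma or: if `finrank = 0` take `0`, if `finrank = 1` take
`LinearEquiv.ofFinrankEq`); compose with `W.mkQ`.) -/
theorem exists_form_of_card_le {Y : Type*} [AddCommGroup Y] [Module (ZMod p) Y] [Finite Y]
    (W : Submodule (ZMod p) Y) (h : Nat.card Y ≤ Nat.card W * p) :
    ∃ φ : Y →ₗ[ZMod p] ZMod p, ∀ y, φ y = 0 → y ∈ W := by
  have hp : p.Prime := Fact.out
  have h1 : Nat.card Y = Nat.card (Y ⧸ W) * Nat.card W :=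
    AddSubgroup.card_eq_card_quotient_mul_card_addSubgroup W.toAddSubgroup
  have hW : 0 < Nat.card W := Nat.card_pos
  have h2 : Nat.card (Y ⧸ W) ≤ p := by
    rw [h1, mul_comm] at h
    exact Nat.le_of_mul_le_mul_left h hW
  have h3 : Nat.card (Y ⧸ W) = p ^ Module.finrank (ZMod p) (Y ⧸ W) := by
    have := Module.natCard_eq_pow_finrank (K := ZMod p) (V := Y ⧸ W)
    rwa [Nat.card_zmod] at this
  have h4 : Module.finrank (ZMod p) (Y ⧸ W) ≤ Module.finrank (ZMod p) (ZMod p) := by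
    rw [Module.finrank_self]
    rw [h3] at h2
    by_contra hcon
    push Not at hcon
    have : p ^ 2 ≤ p ^ Module.finrank (ZMod p) (Y ⧸ W) := Nat.pow_le_pow_right hp.pos hcon
    have h5 : p < p ^ 2 := by nlinarith [hp.one_lt]
    omega
  obtain ⟨f, hf⟩ := finrank_le_iff_exists_linearMap.1 h4
  refine ⟨f ∘ₗ W.mkQ, fun y hy => ?_⟩
  have : W.mkQ y = 0 := hf (by rw [map_zero]; exact hy)
  simpa using this

/-- PROOF.  `W :=` the image of `𝔅` under `Θ`: an additive subgroup of `Y`, hence a `ZMod p`-submodule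
(`AddSubgroup.toZModSubmodule`).  `Nat.card W = Θ.ker.relIndex 𝔅`
(`Θ` restricted to `𝔅` has kernel `Θ.ker.subgroupOf 𝔅` and range `≃ W`; `Subgroup.index_ker`,
`Subgroup.relIndex`).  Conclude with `exists_form_of_card_le`. -/
theorem exists_form {G : Type*} [CommGroup G] {Y : Type*} [AddCommGroup Y] [Module (ZMod p) Y]
    [Finite Y] (Θ : G →* Multiplicative Y) (𝔅 : Subgroup G)
    (h : Nat.card Y ≤ Θ.ker.relIndex 𝔅 * p) :
    ∃ φ : Y →ₗ[ZMod p] ZMod p, ∀ y, φ y = 0 → ∃ b ∈ 𝔅, Θ b = Multiplicative.ofAdd y := by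
  let W₀ : AddSubgroup Y := Subgroup.toAddSubgroup' (𝔅.map Θ)
  let W : Submodule (ZMod p) Y := AddSubgroup.toZModSubmodule p W₀
  have hmem : ∀ y, y ∈ W ↔ ∃ b ∈ 𝔅, Θ b = Multiplicative.ofAdd y := by
    intro y
    show Multiplicative.ofAdd y ∈ 𝔅.map Θ ↔ _
    rw [Subgroup.mem_map]
  have hcard : Nat.card W = Θ.ker.relIndex 𝔅 := by
    have h1 : Θ.ker.relIndex 𝔅 = Nat.card (Θ.comp 𝔅.subtype).range := by
      rw [← Subgroup.index_ker]
      rfl
    rw [h1]
    apply Nat.card_congr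
    refine ⟨fun w => ⟨Multiplicative.ofAdd w.1, ?_⟩, fun w => ⟨Multiplicative.toAdd w.1, ?_⟩,
      fun _ => rfl, fun _ => rfl⟩
    · obtain ⟨b, hb, hb'⟩ := (hmem w.1).1 w.2
      exact ⟨⟨b, hb⟩, hb'⟩
    · obtain ⟨b, hb⟩ := w.2
      exact (hmem _).2 ⟨b.1, b.2, hb⟩
  obtain ⟨φ, hφ⟩ := exists_form_of_card_le W (by rw [hcard]; exact h)
  exact ⟨φ, fun y hy => (hmem y).1 (hφ y hy)⟩

end Fermat.Agent.PT.FA
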