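/-
S55 block FA, leaf `Local` = (FA2): at a place `𝒜` which does not split in `N'/N`, the class of `theta b x` in
`H²(N_𝒜, μ_p)` vanishes iff `b` is a local norm.
-/
import Fermat.Agent.PT.FA.Defs
import Fermat.Agent.PT.Koch.KumApi
import Fermat.Agent.PT.B.Cyclic
import Fermat.Agent.PT.B.Galois
import Fermat.Agent.PT.Hens.NormBridge
import Fermat.Agent.PT.Arith.NL

set_option autoImplicit false

open NumberField IsDedekindDomain Fermat.Agent.CFT Fermat.Agent.PT.Arith ExtCitation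
open scoped Pointwise

noncomputable section

namespace Fermat.Agent.PT.FA

variable {N : Type*} [Field N] [NumberField N] [Algebra N Qbar]
  {N' : Type*} [Field N'] [NumberField N'] [Algebra N' Qbar] [Algebra N N']
  [IsScalarTower N N' Qbar] [IsGalois N N'] {p : ℕ} [Fact p.Prime] {ζ : N}
  {x : GQ → GQ → ZMod p} {𝒜 : Place}

/-- PROOF.  `D := Vof N ⊓ Dec 𝒜`, `hxD : x ∈ Z1 Lall D _ := Z1_le_of_le inf_le_left hx`,
`kerOf D x = D ⊓ kerOf (Vof N) x = Vof N' ⊓ Dec 𝒜` (`kerOf_of_le`, `hker`, `Vof_le_of_tower`); it is `≠ D` by `hns`, so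
`exists_sigma` gives `σ ∈ D`, `x 1 σ = 1`; `σ ∉ Vof N'` (`mem_kerOf_iff`).  `emb b` is fixed by `D` (`Koch.multRep_emb`).
`K := kummerQbar p`.  By `K.theta_norm_mem_B2` and `K.exists_norm_of_theta_mem_B2`:
   `theta ∈ B2 ↔ ∃ c, (∀ w ∈ kerOf D x, multRep w c = c) ∧ normOf multRep p σ c = emb b`.
Translate with `c = ofMul γ`, `β = (γ : Qbar)`: `multRep_fixed_iff` (`kh N' 𝒜 = fixedField (Vof N' ⊓ Dec 𝒜)` by
definition), `toMul_sum_multRep` (`normOf` unfolds to the sum), `β ≠ 0` because the product is `≠ 0`.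
Conclude with `mem_norm_sup_LP_iff h hζ hdeg ⟨_, _⟩ _ b` (`NL = NR ⊔ LP`, `NR` unfolds to the range). -/
theorem theta_mem_B2_iff_mem_NL (hζ : IsPrimitiveRoot ζ p) (hdeg : Module.finrank N N' = p)
    (hx : x ∈ Z1 Lall (Vof N) (trivZ p GQ)) (hker : kerOf (Vof N) x = Vof N') (h : 𝒜.IsFin)
    (hns : ¬ (Vof N ⊓ Dec 𝒜 ≤ Vof N')) (b : Nˣ) :
    (kummerQbar p).theta (Koch.emb b) x ∈ B2 Lall (Vof N ⊓ Dec 𝒜) (cycRep p) ↔
      b ∈ NL N N' p ζ (plOf N 𝒜 h) := by
  set D : Subgroup GQ := Vof N ⊓ Dec 𝒜 with hD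
  have hxD : x ∈ Z1 Lall D (trivZ p GQ) := Z1_le_of_le inf_le_left hx
  have hkerD : kerOf D x = Vof N' ⊓ Dec 𝒜 := by
    rw [kerOf_of_le (inf_le_left : D ≤ Vof N), hker]
    apply le_antisymm
    · exact fun g hg => ⟨hg.2, hg.1.2⟩
    · exact fun g hg => ⟨⟨Vof_le_of_tower N' hg.1, hg.2⟩, hg.1⟩
  have hne : kerOf D x ≠ D := by
    intro h0
    apply hns
    rw [← h0, hkerD]
    exact inf_le_left
  obtain ⟨σ, hσ, hσ1⟩ := exists_sigma hxD hne
  have hσ' : σ ∉ Vof N' := by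
    intro h0
    have h1 : σ ∈ kerOf D x := by
      rw [hkerD]
      exact ⟨h0, hσ.2⟩
    have h2 := ((mem_kerOf_iff hxD).mp h1).2
    rw [hσ1] at h2
    exact one_ne_zero h2
  have hfix : ∀ v ∈ D, multRep v (Koch.emb b) = Koch.emb b := fun v hv => Koch.multRep_emb hv.1 b
  rw [NL, NR, mem_norm_sup_LP_iff h hζ hdeg hσ hσ' b]
  constructor
  · intro hB
    obtain ⟨c, hc, hcN⟩ := (kummerQbar p).exists_norm_of_theta_mem_B2 hxD hσ hσ1 hfix hB
    refine ⟨co c, mem_kh.2 fun g hg => ?_, ?_⟩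
    · have h1 := congrArg co (hc g (by rw [hkerD]; exact hg))
      rwa [co_multRep] at h1
    · have h1 := congrArg co hcN
      rw [co_emb] at h1
      rw [← h1]
      exact (toMul_sum_multRep p σ c).symm
  · rintro ⟨β, hβ, hprod⟩
    have hβ0 : β ≠ 0 := by
      intro h0
      have hp : p.Prime := Fact.out
      have h1 : ∏ i ∈ Finset.range p, (σ ^ i) β = 0 :=
        Finset.prod_eq_zero (Finset.mem_range.mpr hp.pos) (by rw [h0, map_zero])
      rw [h1] at hprod
      have h2 : algebraMap N Qbar (b : N) ≠ 0 := by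
        rw [Ne, map_eq_zero]
        exact b.ne_zero
      exact h2 hprod.symm
    set c : Additive Qbarˣ := Additive.ofMul (Units.mk0 β hβ0) with hc
    have hcβ : co c = β := rfl
    have hcfix : ∀ w ∈ kerOf D x, multRep w c = c := by
      intro w hw
      apply co_injective
      rw [co_multRep, hcβ]
      rw [hkerD] at hw
      exact (mem_kh.1 hβ) w hw
    have hN : normOf multRep p σ c = Koch.emb b := by
      apply co_injective
      rw [co_emb, ← hprod]
      exact toMul_sum_multRep p σ c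
    rw [← hN]
    exact (kummerQbar p).theta_norm_mem_B2 hxD hσ hσ1 hcfix

end Fermat.Agent.PT.FA

end
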