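/-
S55 block FA, leaf `DescentAbs` (ABSTRACT cochain algebra, imports only `PT/B/CycTheta`).
`L ≤ L'` two level systems (later `LS S ≤ Lall`), `K : KummerSetup L' p ρ τ ι`, `x` an `L`-smooth character
cocycle of `V`, `b ∈ A^V`.  If `h' • (l • b) + d0 φ` (`l g₀ g₁ = (x g₀ g₁).val`) has an `L`-smooth `V`-equivariant
`p`-th root `η`, then `h' • theta b x` is cohomologous (for `L'`) to an `L`-smooth cocycle.
-/
import Fermat.Agent.PT.B.CycTheta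

set_option autoImplicit false
set_option linter.unusedSectionVars false

namespace Fermat.Agent.PT.FA

variable {G : Type*} [Group G] {L L' : LevelSystem G} {p : ℕ} [Fact p.Prime]
variable {V : Subgroup G} {x : G → G → ZMod p}
variable {A : Type*} [AddCommGroup A] {ρ : Representation ℤ G A}
variable {T : Type*} [AddCommGroup T] [Module (ZMod p) T] {τ : Representation (ZMod p) G T}
variable {ι : T →+ A}

/-- level change. -/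
theorem Z1_le_of_level_le {k B : Type*} [CommRing k] [AddCommGroup B] [Module k B]
    {σ : Representation k G B} (h : L ≤ L') : Z1 L V σ ≤ Z1 L' V σ := by
  rintro f ⟨⟨he, U, hU, hs⟩, hd⟩
  exact ⟨⟨he, U, h hU, hs⟩, hd⟩

theorem X1_le_of_level_le {k B : Type*} [CommRing k] [AddCommGroup B] [Module k B]
    {σ : Representation k G B} (h : L ≤ L') : X1 L V σ ≤ X1 L' V σ := by
  rintro f ⟨he, U, hU, hs⟩
  exact ⟨he, U, h hU, hs⟩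

/-- `p • cB x b = d1 (l • b)`:  by `val_x_eq`, `p * tOf x g₀ g₁ = l g₀ g₁ - (m g₁).val + (m g₀).val`, and the
last two terms are a `d0`, killed by `d1`. -/
theorem p_smul_cB (hx : x ∈ Z1 L V (trivZ p G)) (b : A) :
    p • cB x b = d1 (k := ℤ) (fun g₀ g₁ => (x g₀ g₁).val • b) := by
  funext g₀ g₁ g₂
  have h12 := val_x_eq hx g₁ g₂
  have h02 := val_x_eq hx g₀ g₂
  have h01 := val_x_eq hx g₀ g₁
  have hl : (p : ℤ) * (tOf x g₁ g₂ - tOf x g₀ g₂ + tOf x g₀ g₁) =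
      ((x g₁ g₂).val : ℤ) - ((x g₀ g₂).val : ℤ) + ((x g₀ g₁).val : ℤ) := by
    rw [h12, h02, h01]; ring
  show p • ((tOf x g₁ g₂ - tOf x g₀ g₂ + tOf x g₀ g₁) • b) =
    (x g₁ g₂).val • b - (x g₀ g₂).val • b + (x g₀ g₁).val • b
  rw [← natCast_zsmul, smul_smul, hl, add_smul, sub_smul, natCast_zsmul, natCast_zsmul,
    natCast_zsmul]

/-- `(g₀,g₁) ↦ (x g₀ g₁).val • b ∈ X1 L V ρ`. -/
theorem val_smul_mem_X1 (hx : x ∈ Z1 L V (trivZ p G)) {b : A} (hb : ∀ v ∈ V, ρ v b = b) :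
    (fun g₀ g₁ => (x g₀ g₁).val • b) ∈ X1 L V ρ := by
  obtain ⟨⟨hxe, U, hU, hxs⟩, -⟩ := mem_Z1.mp hx
  refine ⟨fun v hv g₀ g₁ => ?_, U, hU, fun g₀ g₁ u₀ h₀ u₁ h₁ => ?_⟩
  · show (x (v * g₀) (v * g₁)).val • b = ρ v ((x g₀ g₁).val • b)
    have hxv : x (v * g₀) (v * g₁) = x g₀ g₁ := hxe v hv g₀ g₁
    rw [map_nsmul, hb v hv, hxv]
  · show (x (g₀ * u₀) (g₁ * u₁)).val • b = (x g₀ g₁).val • b
    rw [hxs _ _ _ h₀ _ h₁]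

/-- `cB x b ∈ X2 L V ρ`.  Smoothness: `smooth_tOf`.  Equivariance: the INTEGER
`n g₀ g₁ g₂ := tOf x g₁ g₂ - tOf x g₀ g₂ + tOf x g₀ g₁` satisfies
`p * n g₀ g₁ g₂ = l g₁ g₂ - l g₀ g₂ + l g₀ g₁` (`val_x_eq`), `l` is invariant under `v ∈ V`
(`x (v g₀) (v g₁) = x g₀ g₁`), `p ≠ 0`, so `n` is invariant; and `ρ v b = b`. -/
theorem cB_mem_X2 (hx : x ∈ Z1 L V (trivZ p G)) {b : A} (hb : ∀ v ∈ V, ρ v b = b) :
    cB x b ∈ X2 L V ρ := by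
  obtain ⟨⟨hxe, -⟩, -⟩ := mem_Z1.mp hx
  obtain ⟨U, hU, hs⟩ := smooth_tOf hx
  have hp : (p : ℤ) ≠ 0 := Nat.cast_ne_zero.mpr (Fact.out : p.Prime).ne_zero
  have hl : ∀ g₀ g₁ g₂ : G, (p : ℤ) * (tOf x g₁ g₂ - tOf x g₀ g₂ + tOf x g₀ g₁) =
      ((x g₁ g₂).val : ℤ) - ((x g₀ g₂).val : ℤ) + ((x g₀ g₁).val : ℤ) := by
    intro g₀ g₁ g₂
    rw [val_x_eq hx g₁ g₂, val_x_eq hx g₀ g₂, val_x_eq hx g₀ g₁]; ring
  refine ⟨fun v hv g₀ g₁ g₂ => ?_, U, hU, fun g₀ g₁ g₂ u₀ h₀ u₁ h₁ u₂ h₂ => ?_⟩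
  · show (tOf x (v * g₁) (v * g₂) - tOf x (v * g₀) (v * g₂) + tOf x (v * g₀) (v * g₁)) • b =
      ρ v ((tOf x g₁ g₂ - tOf x g₀ g₂ + tOf x g₀ g₁) • b)
    have e12 : x (v * g₁) (v * g₂) = x g₁ g₂ := hxe v hv g₁ g₂
    have e02 : x (v * g₀) (v * g₂) = x g₀ g₂ := hxe v hv g₀ g₂
    have e01 : x (v * g₀) (v * g₁) = x g₀ g₁ := hxe v hv g₀ g₁
    have hn : tOf x (v * g₁) (v * g₂) - tOf x (v * g₀) (v * g₂) + tOf x (v * g₀) (v * g₁) =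
        tOf x g₁ g₂ - tOf x g₀ g₂ + tOf x g₀ g₁ := by
      apply mul_left_cancel₀ hp
      rw [hl, hl, e12, e02, e01]
    rw [hn, map_zsmul, hb v hv]
  · show (tOf x (g₁ * u₁) (g₂ * u₂) - tOf x (g₀ * u₀) (g₂ * u₂) + tOf x (g₀ * u₀) (g₁ * u₁)) • b =
      (tOf x g₁ g₂ - tOf x g₀ g₂ + tOf x g₀ g₁) • b
    rw [hs _ _ _ h₁ _ h₂, hs _ _ _ h₀ _ h₂, hs _ _ _ h₀ _ h₁]

/-- transport along an injective equivariant `ι`, for ANY level system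
(same proof as `KummerSetup.ι_comp_mem_X2_iff`). -/
theorem mem_X2_of_ι_comp_mem (hinj : Function.Injective ι) (hequiv : ∀ g t, ι (τ g t) = ρ g (ι t))
    {f : G → G → G → T} (h : (fun g₀ g₁ g₂ => ι (f g₀ g₁ g₂)) ∈ X2 L V ρ) : f ∈ X2 L V τ := by
  obtain ⟨he, U, hU, hs⟩ := h
  refine ⟨fun v hv g₀ g₁ g₂ => hinj ?_, U, hU,
    fun g₀ g₁ g₂ u₀ h₀ u₁ h₁ u₂ h₂ => hinj (hs g₀ g₁ g₂ u₀ h₀ u₁ h₁ u₂ h₂)⟩
  rw [hequiv]; exact he v hv g₀ g₁ g₂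

/-- **Abstract `S`-descent.**
PROOF.  `w := d1 η - h' • cB x b ∈ X2 L V ρ` (`d1_mem`, `cB_mem_X2`).
`p • w = d1 (p • η) - h' • (p • cB x b) = h' • d1 (l • b) + d1 (d0 φ) - h' • d1 (l • b) = 0`
(`hφ`, `p_smul_cB`, `d1_d0`).  `z := fun g₀ g₁ g₂ => K.ιinv (w g₀ g₁ g₂)`, so `ι ∘ z = w` (`K.ι_ιinv`).
* `z ∈ X2 L V τ` by `mem_X2_of_ι_comp_mem K.inj K.equiv`.
* `d2 z = 0`: apply `K.inj`; `ι (d2 z ..) = d2 w .. = 0` (`K.ι_d2`, `d2_d1`, `cB_eq_d1`).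
* `z - h' • K.theta b x ∈ B2 L' V τ` by `K.H2_inj`:  `ι ∘ (z - h' • theta) = w - h' • (d1 γ - cB x b)
  = d1 (η - h' • γ)` with `γ = K.gammaK b x ∈ X1 L' V ρ` (`K.ι_theta_add_cB`, `K.gammaK_mem_X1`, both with
  `Z1_le_of_level_le hLL' hx`), `η ∈ X1 L' V ρ` (`X1_le_of_level_le`). -/
theorem exists_descent (hLL' : L ≤ L') (K : KummerSetup L' p ρ τ ι)
    (hx : x ∈ Z1 L V (trivZ p G)) {b : A} (hb : ∀ v ∈ V, ρ v b = b) (h' : ℕ)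
    {η : G → G → A} (hη : η ∈ X1 L V ρ) (φ : G → A)
    (hφ : p • η = h' • (fun g₀ g₁ => (x g₀ g₁).val • b) + d0 (k := ℤ) φ) :
    ∃ z ∈ Z2 L V τ, z - h' • K.theta b x ∈ B2 L' V τ := by
  have hx' : x ∈ Z1 L' V (trivZ p G) := Z1_le_of_level_le hLL' hx
  set w : G → G → G → A := d1 (k := ℤ) η - h' • cB x b with hw
  have hwX : w ∈ X2 L V ρ :=
    (X2 L V ρ).sub_mem (d1_mem hη) ((X2 L V ρ).smul_of_tower_mem h' (cB_mem_X2 hx hb))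
  have hpw : p • w = 0 := by
    rw [hw, smul_sub, ← map_nsmul, hφ, map_add, map_nsmul, d1_d0, add_zero, smul_comm p h',
      p_smul_cB hx b, sub_self]
  have hιz : ∀ g₀ g₁ g₂, ι (K.ιinv (w g₀ g₁ g₂)) = w g₀ g₁ g₂ :=
    fun g₀ g₁ g₂ => K.ι_ιinv (congrFun (congrFun (congrFun hpw g₀) g₁) g₂)
  have hιz' : (fun g₀ g₁ g₂ => ι (K.ιinv (w g₀ g₁ g₂))) = w := by
    funext g₀ g₁ g₂; exact hιz g₀ g₁ g₂
  have hd2w : d2 (k := ℤ) w = 0 := by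
    rw [hw, map_sub, d2_d1, map_nsmul, cB_eq_d1, d2_d1, smul_zero, sub_zero]
  refine ⟨fun g₀ g₁ g₂ => K.ιinv (w g₀ g₁ g₂), mem_Z2.mpr ⟨?_, ?_⟩, ?_⟩
  · apply mem_X2_of_ι_comp_mem K.inj K.equiv
    rw [hιz']; exact hwX
  · funext g₀ g₁ g₂ g₃
    apply K.inj
    rw [K.ι_d2, hιz', hd2w]
    simp
  · apply K.H2_inj
    have hγ := K.gammaK_mem_X1 hb hx'
    have hη' : η ∈ X1 L' V ρ := X1_le_of_level_le hLL' hη
    refine mem_B2.mpr ⟨η - h' • K.gammaK b x,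
      (X1 L' V ρ).sub_mem hη' ((X1 L' V ρ).smul_of_tower_mem h' hγ), ?_⟩
    funext g₀ g₁ g₂
    have h1 := K.ι_theta_add_cB b hx' g₀ g₁ g₂
    rw [map_sub, map_nsmul]
    show d1 (k := ℤ) η g₀ g₁ g₂ - h' • d1 (k := ℤ) (K.gammaK b x) g₀ g₁ g₂ =
      ι (K.ιinv (w g₀ g₁ g₂) - h' • K.theta b x g₀ g₁ g₂)
    rw [map_sub, map_nsmul, hιz, ← h1, hw]
    show _ = d1 (k := ℤ) η g₀ g₁ g₂ - h' • cB x b g₀ g₁ g₂ - _
    rw [smul_add]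
    abel

end Fermat.Agent.PT.FA
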