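/-
S55 block FA, leaf `Divisor` (number fields only, language of `Fermat/Agent/CFT` + `PT/Arith`):
CHOICE OF THE DIVISOR.  `N'/N` cyclic of degree `p` with generator `s₀`, unramified outside `T`; `b ∈ Nˣ` a local norm
at all `v ∉ T`.  Then there is a divisor `𝔡` of `N'` with `(s₀ - 1) 𝔡 + div b ≡ 0 mod p` outside `T`.
-/
import Fermat.Agent.PT.Arith.NLBasic
import Fermat.Agent.PT.Arith.NLSplit

set_option autoImplicit false

open NumberField IsDedekindDomain Fermat.Agent.CFT Fermat.Agent.PT.Arith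

noncomputable section

namespace Fermat.Agent.PT.FA

variable {N : Type*} [Field N] [NumberField N] {N' : Type*} [Field N'] [NumberField N']
  [Algebra N N'] [IsGalois N N'] {p : ℕ} [Fact p.Prime]

omit [IsGalois N N'] in
theorem Divisor.ord_smul_algebraMap (σ : N' ≃ₐ[N] N') (w : Pl N') (x : N) :
    ord (σ • w) (algebraMap N N' x) = ord w (algebraMap N N' x) := by
  rw [ord_smul]
  congr 1
  exact σ⁻¹.commutes x

omit [IsGalois N N'] in
theorem Divisor.smul_not_mem_upSet (σ : N' ≃ₐ[N] N') {T : Set (Pl N)} {w : Pl N'}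
    (hw : w ∉ upSet N' T) : σ • w ∉ upSet N' T := by
  rintro ⟨v, hv, hab⟩
  refine hw ⟨v, hv, ?_⟩
  have := above_smul hab σ⁻¹
  rwa [inv_smul_smul] at this

/-- PROOF.  Choose `wv v` above every `v : Pl N` (`exists_above`), `o w := ord w (algebraMap N N' b)` and
    `𝔡 w := ∑ j ∈ Finset.range p, if s₀ ^ j • wv (below w) = w then (j : ℤ) * o w else 0`
(`below`: `exists_below`/`w.under`).  Support: `o w ≠ 0` for finitely many `w` (`finite_ord_ne_zero`).
`o (s₀⁻¹ • w) = o w` (`ord_smul`, `s₀` fixes `algebraMap N N' b`), `s₀⁻¹ • w` lies above the same `v` (`above_smul`),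
`s₀ ^ j • wv = s₀⁻¹ • w ↔ s₀ ^ (j+1) • wv = w`, `s₀ ^ p = 1` (`Nat.card (N' ≃ₐ[N] N') = p`).  Shifting the index:
    `𝔡 (s₀⁻¹ • w) - 𝔡 w = (p * [wv = w] - #{j < p | s₀ ^ j • wv = w}) * o w`.
* `v` split: exactly one `j < p` has `s₀ ^ j • wv = w` (existence: `exists_smul_eq_of_above` + every element of a
  group of prime order `p` is a power `s₀ ^ j`, `j < p`, of `s₀ ≠ 1`; uniqueness: `Split`), so the sum is
  `p * [..] * o w`.
* `v` not split: `p ∣ o w`:  `Unram N w` (`hram`), `ramificationIdx_eq_one_of_unram`,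
  `NL_le_PD_of_ramificationIdx_eq_one`, `ord_algebraMap_of_unram`;  every term is divisible by `p`.
(Equivalent alternative: define `𝔡 w = j * o w` for the unique `j` in the split case and `0` otherwise.) -/
theorem exists_divisor (ζ : N) (hdeg : Module.finrank N N' = p) (s₀ : N' ≃ₐ[N] N') (hs₀ : s₀ ≠ 1)
    (T : Set (Pl N)) (hram : ∀ w : Pl N', w ∉ upSet N' T → Unram N w) (b : Nˣ)
    (hb : ∀ v : Pl N, v ∉ T → b ∈ NL N N' p ζ v) :
    ∃ 𝔡 : Pl N' → ℤ, (Function.support 𝔡).Finite ∧ ∀ w : Pl N', w ∉ upSet N' T →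
      (p : ℤ) ∣ 𝔡 (s₀⁻¹ • w) - 𝔡 w + ord w (algebraMap N N' (b : N)) := by
  classical
  have hp : p.Prime := Fact.out
  have hcard : Nat.card (N' ≃ₐ[N] N') = p := by rw [IsGalois.card_aut_eq_finrank N N', hdeg]
  have hord : orderOf s₀ = p := by
    refine orderOf_eq_prime ?_ hs₀
    rw [← hcard]
    exact pow_card_eq_one'
  choose wv hwv using fun v : Pl N => exists_above (N' := N') v
  choose bel hbel using fun w : Pl N' => exists_below (N := N) w
  have hex : ∀ w : Pl N', ∃ j : ℕ, s₀ ^ j • wv (bel w) = w := by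
    intro w
    obtain ⟨σ, hσ⟩ := exists_smul_eq_of_above (hwv (bel w)) (hbel w)
    obtain ⟨j, hj⟩ := mem_powers_of_prime_card hcard hs₀ (g' := σ)
    exact ⟨j, by rw [show s₀ ^ j = σ from hj, hσ]⟩
  choose J hJ using hex
  refine ⟨fun w => if Split N' (bel w) then (J w : ℤ) * ord w (algebraMap N N' (b : N)) else 0,
    ?_, fun w hw => ?_⟩
  · have hb0 : algebraMap N N' (b : N) ≠ 0 := (map_ne_zero _).mpr b.ne_zero
    refine (finite_ord_ne_zero hb0).subset ?_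
    intro w hw
    simp only [Function.mem_support] at hw
    simp only [Set.mem_ofPred_eq]
    intro h0
    apply hw
    rw [h0, mul_zero, ite_self]
  · have hbel' : bel (s₀⁻¹ • w) = bel w :=
      below_unique (hbel (s₀⁻¹ • w)) (above_smul (hbel w) s₀⁻¹)
    have hvT : bel w ∉ T := fun h => hw ⟨bel w, h, hbel w⟩
    simp only [hbel', Divisor.ord_smul_algebraMap]
    by_cases hsp : Split N' (bel w)
    · rw [if_pos hsp, if_pos hsp]
      have h1 : s₀ ^ (J (s₀⁻¹ • w) + 1) • wv (bel w) = s₀ ^ J w • wv (bel w) := by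
        have h2 := hJ (s₀⁻¹ • w)
        rw [hbel'] at h2
        rw [pow_succ', mul_smul, h2, smul_inv_smul, hJ w]
      have h3 : ((s₀ ^ J w)⁻¹ * s₀ ^ (J (s₀⁻¹ • w) + 1)) • wv (bel w) = wv (bel w) := by
        rw [mul_smul, h1, inv_smul_smul]
      have h4 := hsp _ (hwv (bel w)) _ h3
      have h5 : s₀ ^ (J (s₀⁻¹ • w) + 1) = s₀ ^ J w := by
        rw [inv_mul_eq_one] at h4
        exact h4.symm
      rw [pow_eq_pow_iff_modEq, hord] at h5
      have h6 := (Nat.modEq_iff_dvd.mp h5.symm)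
      have h7 : (J (s₀⁻¹ • w) : ℤ) * ord w (algebraMap N N' (b : N)) -
          (J w : ℤ) * ord w (algebraMap N N' (b : N)) + ord w (algebraMap N N' (b : N)) =
          (((J (s₀⁻¹ • w) + 1 : ℕ) : ℤ) - (J w : ℤ)) * ord w (algebraMap N N' (b : N)) := by
        push_cast
        ring
      rw [h7]
      exact Dvd.dvd.mul_right h6 _
    · rw [if_neg hsp, if_neg hsp, sub_zero, zero_add]
      have hu := hram w hw
      have h1 := NL_le_PD_of_ramificationIdx_eq_one p ζ hdeg (hbel w)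
        (ramificationIdx_eq_one_of_unram (hbel w) hu) hsp (hb _ hvT)
      rw [mem_PD_iff] at h1
      rwa [ord_algebraMap_of_unram (hbel w) hu]

/-- Induction on `k`: `(s₀ ^ (k+1))⁻¹ • w = s₀⁻¹ • ((s₀ ^ k)⁻¹ • w)`; `(s₀ ^ k)⁻¹ • w ∉ upSet N' T` (`above_smul`) and
`ord ((s₀ ^ k)⁻¹ • w) (algebraMap b) = ord w (algebraMap b)` (`ord_smul`). -/
theorem divisor_pow (s₀ : N' ≃ₐ[N] N') (T : Set (Pl N)) (b : Nˣ) (𝔡 : Pl N' → ℤ)
    (h𝔡 : ∀ w : Pl N', w ∉ upSet N' T →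
      (p : ℤ) ∣ 𝔡 (s₀⁻¹ • w) - 𝔡 w + ord w (algebraMap N N' (b : N))) (k : ℕ) :
    ∀ w : Pl N', w ∉ upSet N' T →
      (p : ℤ) ∣ 𝔡 ((s₀ ^ k)⁻¹ • w) - 𝔡 w + k * ord w (algebraMap N N' (b : N)) := by
  induction k with
  | zero =>
    intro w _
    simp
  | succ k ih =>
    intro w hw
    have h1 := h𝔡 ((s₀ ^ k)⁻¹ • w) (Divisor.smul_not_mem_upSet _ hw)
    rw [Divisor.ord_smul_algebraMap] at h1
    have h2 := ih w hw
    have e : (s₀ ^ (k + 1))⁻¹ • w = s₀⁻¹ • (s₀ ^ k)⁻¹ • w := by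
      rw [pow_succ, mul_inv_rev, mul_smul]
    rw [e]
    have h3 := dvd_add h1 h2
    have e2 : 𝔡 (s₀⁻¹ • (s₀ ^ k)⁻¹ • w) - 𝔡 w + ((k + 1 : ℕ) : ℤ) * ord w (algebraMap N N' (b : N)) =
        𝔡 (s₀⁻¹ • (s₀ ^ k)⁻¹ • w) - 𝔡 ((s₀ ^ k)⁻¹ • w) + ord w (algebraMap N N' (b : N)) +
          (𝔡 ((s₀ ^ k)⁻¹ • w) - 𝔡 w + (k : ℤ) * ord w (algebraMap N N' (b : N))) := by
      push_cast
      ring
    rw [e2]
    exact h3

end Fermat.Agent.PT.FA

end
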