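/-
S55 block FA, leaf `Outside`: small bridges between `OverS S` / `(LS S)`-openness and the language of
`Fermat/Agent/CFT` (`upSet`, `Unram`, `Split`) for a tower `N ⊆ N' ⊆ Qbar`.
-/
import Fermat.Agent.PT.FA.Defs
import Fermat.Agent.PT.Koch.PlaceSys
import Fermat.Agent.PT.Hens.RestrictIne

set_option autoImplicit false

open NumberField IsDedekindDomain Fermat.Agent.CFT ExtCitation
open scoped Pointwise

noncomputable section

namespace Fermat.Agent.PT.FA

variable {N : Type*} [Field N] [NumberField N] [Algebra N Qbar]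
  {N' : Type*} [Field N'] [NumberField N'] [Algebra N' Qbar] [Algebra N N']
  [IsScalarTower N N' Qbar] {S : Finset Nat.Primes} {𝒜 : Place}

/-- (`above_plOf_plOf`, `below_unique`, `Koch.plOf_mem_SN_iff`.) -/
theorem not_mem_upSet_plOf (h : 𝒜.IsFin) (hS : ¬ 𝒜.OverS S) :
    plOf N' 𝒜 h ∉ upSet N' (Koch.SN N S) := by
  rintro ⟨v, hv, hab⟩
  have h1 : v = plOf N 𝒜 h := below_unique hab (above_plOf_plOf h N')
  rw [h1, Koch.plOf_mem_SN_iff] at hv
  exact hS hv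

/-- the converse. -/
theorem not_overS_of_not_mem_upSet (h : 𝒜.IsFin) (hw : plOf N' 𝒜 h ∉ upSet N' (Koch.SN N S)) :
    ¬ 𝒜.OverS S := by
  intro hS
  exact hw ⟨plOf N 𝒜 h, (Koch.plOf_mem_SN_iff h).2 hS, above_plOf_plOf h N'⟩

variable [IsGalois N N']

/-- `w = plOf N' 𝒜 h` (`exists_plOf_eq`), `𝒜` is not over `S`, `Ine 𝒜 ≤ Vof N'` (`Koch.Ine_le_of_isOpen_LS`),
`unram_plOf_iff`. -/
theorem unram_outside (hopen : (LS S).IsOpen (Vof N')) :
    ∀ w : Pl N', w ∉ upSet N' (Koch.SN N S) → Unram N w := by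
  intro w hw
  obtain ⟨𝒜, h, rfl⟩ := exists_plOf_eq w
  have hS : ¬ 𝒜.OverS S := not_overS_of_not_mem_upSet h hw
  rw [unram_plOf_iff]
  exact inf_le_right.trans (Koch.Ine_le_of_isOpen_LS hopen h hS)

theorem not_split_plOf (h : 𝒜.IsFin) (hns : ¬ (Vof N ⊓ Dec 𝒜 ≤ Vof N')) :
    ¬ Split N' (plOf N 𝒜 h) :=
  fun hs => hns ((split_plOf_iff h).mp hs)

/-- If `Vof N' = Vof N` then `resHom N N'` is trivial (`resHom_eq_one_iff`) and onto (`resHom_surjective`), so
`Nat.card (N' ≃ₐ[N] N') = 1`, but it is `finrank N N' = p` (`IsGalois.card_aut_eq_finrank`). -/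
theorem Vof_ne {p : ℕ} [Fact p.Prime] (hdeg : Module.finrank N N' = p) : Vof N' ≠ Vof N := by
  intro heq
  have hp : p.Prime := Fact.out
  have h1 : ∀ s : N' ≃ₐ[N] N', s = 1 := by
    intro s
    obtain ⟨g, rfl⟩ := resHom_surjective (N := N) (N' := N') s
    rw [resHom_eq_one_iff, heq]
    exact g.2
  have h2 : Nat.card (N' ≃ₐ[N] N') = 1 := by
    rw [Nat.card_eq_one_iff_unique]
    exact ⟨⟨fun a b => by rw [h1 a, h1 b]⟩, ⟨1⟩⟩
  rw [IsGalois.card_aut_eq_finrank, hdeg] at h2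
  exact hp.one_lt.ne' h2

end Fermat.Agent.PT.FA

end
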