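/-
S55 block FA, leaf `DivisorGal`: the divisor of `Divisor.lean` in terms of the character cocycle `x` of
`Vof N` with kernel `Vof N'`.
-/
import Fermat.Agent.PT.FA.Divisor
import Fermat.Agent.PT.FA.Outside
import Fermat.Agent.PT.B.CycDefs

set_option autoImplicit false

open NumberField IsDedekindDomain Fermat.Agent.CFT Fermat.Agent.PT.Arith ExtCitation
open scoped Pointwise

noncomputable section

namespace Fermat.Agent.PT.FA

variable {N : Type*} [Field N] [NumberField N] [Algebra N Qbar]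
  {N' : Type*} [Field N'] [NumberField N'] [Algebra N' Qbar] [Algebra N N']
  [IsScalarTower N N' Qbar] [IsGalois N N'] {p : ℕ} [Fact p.Prime] {L : LevelSystem GQ}
  {x : GQ → GQ → ZMod p}

/-- `k := (x 1 v).val`; `v'' := (σ ^ k)⁻¹ * v ∈ kerOf (Vof N) x = Vof N'` (`mem_kerOf_iff`, `x_one_mul`, `x_one_pow`:
`x 1 v = x 1 (σ ^ k * v'') = k * 1 + x 1 v''`), so `resHom v = resHom σ ^ k` (`map_mul`, `map_pow`,
`resHom_eq_one_iff`). -/
theorem resHom_eq_pow (hx : x ∈ Z1 L (Vof N) (trivZ p GQ)) (hker : kerOf (Vof N) x = Vof N')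
    {σ : GQ} (hσ : σ ∈ Vof N) (hσ1 : x 1 σ = 1) (v : Vof N) :
    resHom N N' v = resHom N N' ⟨σ, hσ⟩ ^ (x 1 (v : GQ)).val := by
  set k : ℕ := (x 1 (v : GQ)).val with hk
  have hw : (σ ^ k)⁻¹ * (v : GQ) ∈ kerOf (Vof N) x := by
    rw [mem_kerOf_iff hx]
    refine ⟨(Vof N).mul_mem ((Vof N).inv_mem ((Vof N).pow_mem hσ _)) v.2, ?_⟩
    have h3 := x_one_pow hx hσ k ((σ ^ k)⁻¹ * (v : GQ))
    rw [mul_inv_cancel_left, hσ1, mul_one, hk, ZMod.natCast_zmod_val] at h3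
    linear_combination -h3
  rw [hker] at hw
  have h1 : resHom N N' (((⟨σ, hσ⟩ : Vof N) ^ k)⁻¹ * v) = 1 :=
    (resHom_eq_one_iff _).mpr hw
  rw [map_mul, map_inv, map_pow, inv_mul_eq_one] at h1
  exact h1.symm

/-- `σ ∉ kerOf (Vof N) x` since `x 1 σ = 1 ≠ 0` (`mem_kerOf_iff`); `resHom_eq_one_iff`. -/
theorem resHom_sigma_ne_one (hx : x ∈ Z1 L (Vof N) (trivZ p GQ)) (hker : kerOf (Vof N) x = Vof N')
    {σ : GQ} (hσ : σ ∈ Vof N) (hσ1 : x 1 σ = 1) : resHom N N' ⟨σ, hσ⟩ ≠ 1 := by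
  intro h1
  have h2 : σ ∈ Vof N' := (resHom_eq_one_iff (⟨σ, hσ⟩ : Vof N)).mp h1
  rw [← hker, mem_kerOf_iff hx, hσ1] at h2
  exact one_ne_zero h2.2

/-- **The divisor.**  (`exists_sigma` (with `Vof_ne`), `exists_divisor` for `s₀ = resHom σ`, `T = SN N S`,
`unram_outside`, then `divisor_pow` + `resHom_eq_pow`.) -/
theorem exists_divisor_gal {S : Finset Nat.Primes} (ζ : N) (hdeg : Module.finrank N N' = p)
    (hopen : (LS S).IsOpen (Vof N')) (hx : x ∈ Z1 L (Vof N) (trivZ p GQ))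
    (hker : kerOf (Vof N) x = Vof N') (b : Nˣ)
    (hb : ∀ v : Pl N, v ∉ Koch.SN N S → b ∈ NL N N' p ζ v) :
    ∃ 𝔡 : Pl N' → ℤ, (Function.support 𝔡).Finite ∧
      ∀ (v : Vof N) (w : Pl N'), w ∉ upSet N' (Koch.SN N S) →
        (p : ℤ) ∣ 𝔡 ((resHom N N' v)⁻¹ • w) - 𝔡 w
          + ((x 1 (v : GQ)).val : ℤ) * ord w (algebraMap N N' (b : N)) := by
  have hne : kerOf (Vof N) x ≠ Vof N := by
    rw [hker]
    exact Vof_ne hdeg
  obtain ⟨σ, hσ, hσ1⟩ := exists_sigma hx hne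
  obtain ⟨𝔡, hfin, h𝔡⟩ := exists_divisor ζ hdeg (resHom N N' ⟨σ, hσ⟩)
    (resHom_sigma_ne_one hx hker hσ hσ1) (Koch.SN N S) (unram_outside hopen) b hb
  refine ⟨𝔡, hfin, fun v w hw => ?_⟩
  rw [resHom_eq_pow hx hker hσ hσ1 v]
  exact divisor_pow (resHom N N' ⟨σ, hσ⟩) (Koch.SN N S) b 𝔡 h𝔡 _ w hw

end Fermat.Agent.PT.FA

end
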