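/-
S55 block FA, leaf `LiftS` (ABSTRACT, imports only `PT/B/Lift`): equivariant "division" of a `1`-cochain
stays smooth for a SMALLER level system `L` as soon as all the values involved are `L`-smooth vectors.
(`K.lift1_mem` of `PT/B/Lift.lean` is the case where the whole representation is `L`-smooth; copy its proof.)
-/
import Fermat.Agent.PT.B.Lift

set_option autoImplicit false
set_option linter.unusedSectionVars false

namespace Fermat.Agent.PT.FA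

variable {G : Type*} [Group G] {L : LevelSystem G}
variable {A : Type*} [AddCommGroup A] {ρ : Representation ℤ G A}

/-- finitely many `L`-smooth vectors are fixed by a common level (induction, `L.directed'`). -/
theorem exists_level_of_finite {C : Set A} (hC : C.Finite)
    (h : ∀ c ∈ C, ∃ U ∈ L, ∀ u ∈ U, ρ u c = c) : ∃ U ∈ L, ∀ u ∈ U, ∀ c ∈ C, ρ u c = c := by
  induction C, hC using Set.Finite.induction_on with
  | empty =>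
    obtain ⟨U, hU⟩ := L.nonempty'
    exact ⟨U, hU, fun _ _ c hc => absurd hc (Set.notMem_empty c)⟩
  | @insert a C _ _ ih =>
    obtain ⟨U, hU, h1⟩ := ih fun c hc => h c (Set.mem_insert_of_mem a hc)
    obtain ⟨U', hU', h2⟩ := h a (Set.mem_insert a C)
    obtain ⟨W, hW, w1, w2⟩ := L.directed' U hU U' hU'
    refine ⟨W, hW, fun u hu c hc => ?_⟩
    rcases Set.mem_insert_iff.mp hc with rfl | hc
    · exact h2 u (w2 hu)
    · exact h1 u (w1 hu) c hc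

/-- a right-invariant function all of whose values are `L`-smooth vectors: common level. -/
theorem LiftS.exists_level_fix1 {f : G → G → A} (hf : Smooth1 L f)
    (h : ∀ g₀ g₁, ∃ U ∈ L, ∀ u ∈ U, ρ u (f g₀ g₁) = f g₀ g₁) :
    ∃ U ∈ L, (∀ g₀ g₁, ∀ u₀ ∈ U, ∀ u₁ ∈ U, f (g₀ * u₀) (g₁ * u₁) = f g₀ g₁) ∧
      ∀ g₀ g₁, ∀ u ∈ U, ρ u (f g₀ g₁) = f g₀ g₁ := by
  obtain ⟨U, hU, hs⟩ := hf
  obtain ⟨U', hU', hfix⟩ := exists_level_of_finite (L := L) (ρ := ρ) (lift_finite_range1 hU hs)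
    (by rintro _ ⟨⟨g₀, g₁⟩, rfl⟩; exact h g₀ g₁)
  obtain ⟨W, hW, w1, w2⟩ := L.directed' U hU U' hU'
  exact ⟨W, hW, fun g₀ g₁ u₀ h₀ u₁ h₁ => hs g₀ g₁ u₀ (w1 h₀) u₁ (w1 h₁),
    fun g₀ g₁ u hu => hfix u (w2 hu) _ ⟨(g₀, g₁), rfl⟩⟩

/-- PROOF (compare `KummerSetup.lift1_mem`).  Equivariance: `simp only [hψ.1 v hv, mul_inv_rev, ...]`.
Smoothness.  `ψ` is right invariant under `U₀ ∈ L`, so it has finitely many values (`lift_finite_range1`);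
each value `a` is fixed by a level (`h1`), of finite index, so its orbit `{ρ g a}` is finite
(as in `IsSmoothRep.finite_orbit`); so `C := {ρ g (ψ g₀ g₁)}` is finite, each of its elements is fixed by a
level (conjugate: levels are normal), and `C' := s '' C` is finite with all elements fixed by a level (`h2`).
Take `W ∈ L`, `W ≤ U₀`, fixing `C ∪ C'` pointwise (`exists_level_of_finite`).  For `u₀ u₁ ∈ W`:
`ρ (g₀ u₀)⁻¹ (ψ (g₀ u₀) (g₁ u₁)) = ρ u₀⁻¹ (ρ g₀⁻¹ (ψ g₀ g₁)) = ρ g₀⁻¹ (ψ g₀ g₁) =: c`, and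
`ρ (g₀ u₀) (s c) = ρ g₀ (ρ u₀ (s c)) = ρ g₀ (s c)`. -/
theorem lift1_mem_of_smooth {V : Subgroup G} (s : A → A) {ψ : G → G → A} (hψ : ψ ∈ X1 L V ρ)
    (h1 : ∀ g₀ g₁, ∃ U ∈ L, ∀ u ∈ U, ρ u (ψ g₀ g₁) = ψ g₀ g₁)
    (h2 : ∀ g g₀ g₁, ∃ U ∈ L, ∀ u ∈ U, ρ u (s (ρ g (ψ g₀ g₁))) = s (ρ g (ψ g₀ g₁))) :
    (fun g₀ g₁ => ρ g₀ (s (ρ g₀⁻¹ (ψ g₀ g₁)))) ∈ X1 L V ρ := by
  obtain ⟨heq, hsm⟩ := hψ
  refine ⟨fun v hv g₀ g₁ => ?_, ?_⟩
  · simp only [heq v hv g₀ g₁, mul_inv_rev, lift_rho_mul, lift_rho_inv_self]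
  · obtain ⟨U, hU, k1, k2⟩ := LiftS.exists_level_fix1 (ρ := ρ) hsm h1
    have hn : U.Normal := L.normal' U hU
    have hc : Smooth1 L (fun g₀ g₁ => s (ρ g₀⁻¹ (ψ g₀ g₁))) := by
      refine ⟨U, hU, fun g₀ g₁ u₀ h₀ u₁ h₁ => ?_⟩
      have hconj : g₀ * u₀⁻¹ * g₀⁻¹ ∈ U := hn.conj_mem _ (U.inv_mem h₀) g₀
      have : (g₀ * u₀)⁻¹ = g₀⁻¹ * (g₀ * u₀⁻¹ * g₀⁻¹) := by group
      simp only [k1 g₀ g₁ u₀ h₀ u₁ h₁]
      rw [this, lift_rho_mul, k2 g₀ g₁ _ hconj]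
    obtain ⟨U', hU', m1, m2⟩ := LiftS.exists_level_fix1 (ρ := ρ) hc fun g₀ g₁ => h2 g₀⁻¹ g₀ g₁
    refine ⟨U', hU', fun g₀ g₁ u₀ h₀ u₁ h₁ => ?_⟩
    have := m1 g₀ g₁ u₀ h₀ u₁ h₁
    simp only at this ⊢
    rw [this, lift_rho_mul, m2 g₀ g₁ u₀ h₀]

end Fermat.Agent.PT.FA
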