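/-
S55 block FA, leaf `PhiCochain`: the `S`-smooth `0`-cochain `φ g = (π g) c₀` and root extraction for `S`-smooth
`1`-cochains.
-/
import Fermat.Agent.PT.FA.LiftS
import Fermat.Agent.PT.FA.UnramRoot
import Fermat.Agent.PT.B.Galois

set_option autoImplicit false

open NumberField IsDedekindDomain Fermat.Agent.CFT Fermat.Agent.PT.Arith ExtCitation
open scoped Pointwise

noncomputable section

namespace Fermat.Agent.PT.FA

variable {S : Finset Nat.Primes} {p : ℕ} [Fact p.Prime]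

/-- (P1)  Equivariance: `multRep (v * π g) c = multRep v (multRep (π g) c)` (`map_mul`).
Smoothness: `U₁ ∈ LS S` fixing `c` (`exists_level_multRep`), `W ∈ LS S`, `W ≤ U₀ ⊓ U₁` (`directed'`), `W` normal.  For
`u ∈ W`: `π (g u) = (g u g⁻¹) π g = π g * w` with `w = (π g)⁻¹ (g u g⁻¹) (π g) ∈ W`, and `multRep w c = c`. -/
theorem phi_mem_X0 {V : Subgroup GQ} {π : GQ → GQ} (hπ : ∀ v ∈ V, ∀ g, π (v * g) = v * π g)
    {U₀ : Subgroup GQ} (hU₀ : U₀ ∈ LS S) (hπU : ∀ g, ∀ u ∈ U₀, π (g * u) = g * u * g⁻¹ * π g)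
    {c : Additive Qbarˣ} (hc : InS S (co c)) :
    (fun g => multRep (π g) c) ∈ X0 (LS S) V multRep := by
  obtain ⟨U₁, hU₁, hfix⟩ := exists_level_multRep hc
  obtain ⟨W, hW, w0, w1⟩ := (LS S).directed' U₀ hU₀ U₁ hU₁
  have hn : W.Normal := (LS S).normal' W hW
  refine ⟨fun v hv g => ?_, W, hW, fun g u hu => ?_⟩
  · show multRep (π (v * g)) c = multRep v (multRep (π g) c)
    rw [hπ v hv g, map_mul]
    rfl
  · show multRep (π (g * u)) c = multRep (π g) c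
    rw [hπU g u (w0 hu)]
    have h1 : g * u * g⁻¹ ∈ W := hn.conj_mem u hu g
    have h2 : (π g)⁻¹ * (g * u * g⁻¹) * (π g)⁻¹⁻¹ ∈ W := hn.conj_mem _ h1 (π g)⁻¹
    have h3 : g * u * g⁻¹ * π g = π g * ((π g)⁻¹ * (g * u * g⁻¹) * (π g)⁻¹⁻¹) := by group
    rw [h3, map_mul]
    show multRep (π g) (multRep _ c) = _
    rw [hfix _ (w1 h2)]

/-- (P3)  ROOT EXTRACTION.  `ψ ∈ X1 (LS S) V multRep` whose values lie in `Q_S` and satisfy `PDiv` outside `S`: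
`η := (kummerQbar p).lift1 ψ` works.  `p • η = ψ` is `KummerSetup.p_smul_lift1`; `η ∈ X1 (LS S) V multRep` by
`lift1_mem_of_smooth (kummerQbar p).s hψ` (unfold `KummerSetup.lift1`): `h1` from `exists_level_multRep (hQ ..)`;
`h2`: `β := (kummerQbar p).s (multRep g (ψ g₀ g₁))` has `co β ^ p = g (co (ψ g₀ g₁))` (`KummerSetup.p_smul_s`, `co_nsmul`,
`co_multRep`), so `InS S (co β)` by `inS_of_pow_eq hpS ((hQ ..).apply g) (pDiv_apply_of_forall (hP ..) g)`, then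
`exists_level_multRep`. -/
theorem exists_root_cochain (hpS : pPrime p ∈ S) {V : Subgroup GQ} {ψ : GQ → GQ → Additive Qbarˣ}
    (hψ : ψ ∈ X1 (LS S) V multRep) (hQ : ∀ g₀ g₁, InS S (co (ψ g₀ g₁)))
    (hP : ∀ g₀ g₁, ∀ 𝒜 : Place, 𝒜.IsFin → ¬ 𝒜.OverS S → PDiv p 𝒜 (co (ψ g₀ g₁))) :
    ∃ η ∈ X1 (LS S) V multRep, p • η = ψ := by
  refine ⟨(kummerQbar p).lift1 ψ, ?_, (kummerQbar p).p_smul_lift1 ψ⟩
  refine lift1_mem_of_smooth (kummerQbar p).s hψ (fun g₀ g₁ => exists_level_multRep (hQ g₀ g₁))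
    (fun g g₀ g₁ => ?_)
  apply exists_level_multRep
  refine inS_of_pow_eq hpS ((hQ g₀ g₁).apply g) (pDiv_apply_of_forall (hP g₀ g₁) g) ?_
  rw [← co_nsmul, (kummerQbar p).p_smul_s, co_multRep]

end Fermat.Agent.PT.FA

end
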