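/-
S55 block FA, leaf `PhiLocal`: THE LOCAL COMPUTATION: all values of
`ψ = h' • (l • b) + d0 φ`, `φ g = (π g) c₀`, have "`p ∣ ord_𝒜`" at the finite places `𝒜` outside `S`.
-/
import Fermat.Agent.PT.FA.HasOrd
import Fermat.Agent.PT.FA.Outside
import Fermat.Agent.PT.B.CycDefs

set_option autoImplicit false

open NumberField IsDedekindDomain Fermat.Agent.CFT Fermat.Agent.PT.Arith ExtCitation
open scoped Pointwise

noncomputable section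

namespace Fermat.Agent.PT.FA

variable {S : Finset Nat.Primes} {p : ℕ} [Fact p.Prime]

variable {N : Type*} [Field N] [NumberField N] [Algebra N Qbar]
  {N' : Type*} [Field N'] [NumberField N'] [Algebra N' Qbar] [Algebra N N']
  [IsScalarTower N N' Qbar] [IsGalois N N'] {x : GQ → GQ → ZMod p}

/-- (P2)  THE LOCAL COMPUTATION.  `w := plOf N' 𝒜 h ∉ upSet N' (SN N S)` (`not_mem_upSet_plOf`),
`o := ord w (algebraMap N N' b)`, `rᵢ := resHom N N' ⟨π gᵢ, _⟩`.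
* `HasOrd N' h (algebraMap N Qbar b) o` (`hasOrd_emb`);
* `HasOrd N' h ((π gᵢ) c₀) (h' * 𝔡 (rᵢ⁻¹ • w))`: `HasOrd.apply h (hπV gᵢ)` applied to `hc₀ ((π gᵢ)⁻¹ • 𝒜) (h.smul _) _`
  (not over `S`: `liesOverPrime_smul_iff`), rewritten with `plOf_inv_smul`;
* so (`HasOrd.pow`, `.mul`, `.div`, simp lemmas `co_add`, `co_sub`, `co_nsmul`, `co_multRep`, `co_emb`) the element has
  `HasOrd` with `n = h' * (l * o) + (h' * 𝔡 (r₁⁻¹ • w) - h' * 𝔡 (r₀⁻¹ • w))`, `l = (x g₀ g₁).val`;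
* `p ∣ n`: by `h𝔡` for `v = π g₁, π g₀`, `hπx` and `val_x_eq hx g₀ g₁`
  (`l = (x 1 g₁).val - (x 1 g₀).val + p * tOf x g₀ g₁`):
  `n = h' * (A₁ - A₀) + h' * o * p * tOf`, `Aᵢ := 𝔡 (rᵢ⁻¹ • w) - 𝔡 w + (x 1 gᵢ).val * o`;
* `HasOrd.pDiv` with `Ine 𝒜 ≤ Vof N'` (`Koch.Ine_le_of_isOpen_LS hopen h hS`). -/
theorem pDiv_psi (hopen : (LS S).IsOpen (Vof N')) (hx : x ∈ Z1 (LS S) (Vof N) (trivZ p GQ))
    {π : GQ → GQ} (hπV : ∀ g, π g ∈ Vof N) (hπx : ∀ g, x 1 (π g) = x 1 g) (b : Nˣ)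
    {𝔡 : Pl N' → ℤ}
    (h𝔡 : ∀ (v : Vof N) (w : Pl N'), w ∉ upSet N' (Koch.SN N S) →
        (p : ℤ) ∣ 𝔡 ((resHom N N' v)⁻¹ • w) - 𝔡 w
          + ((x 1 (v : GQ)).val : ℤ) * ord w (algebraMap N N' (b : N)))
    {h' : ℕ} {c₀ : Qbarˣ}
    (hc₀ : ∀ (𝒜 : Place) (h : 𝒜.IsFin), ¬ 𝒜.OverS S →
        HasOrd N' h (c₀ : Qbar) (h' * 𝔡 (plOf N' 𝒜 h)))
    (g₀ g₁ : GQ) (𝒜 : Place) (h : 𝒜.IsFin) (hS : ¬ 𝒜.OverS S) :
    PDiv p 𝒜 (co (h' • ((x g₀ g₁).val • Koch.emb b)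
      + (multRep (π g₁) (Additive.ofMul c₀) - multRep (π g₀) (Additive.ofMul c₀)))) := by
  have hw : plOf N' 𝒜 h ∉ upSet N' (Koch.SN N S) := not_mem_upSet_plOf h hS
  have hb : HasOrd N' h (algebraMap N Qbar b) (ord (plOf N' 𝒜 h) (algebraMap N N' (b : N))) :=
    hasOrd_emb h b
  have hc : ∀ g : GQ, HasOrd N' h ((π g) (c₀ : Qbar))
      (h' * 𝔡 ((resHom N N' ⟨π g, hπV g⟩)⁻¹ • plOf N' 𝒜 h)) := by
    intro g
    have hS' : ¬ ((π g)⁻¹ • 𝒜).OverS S := by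
      rintro ⟨q, hq, hq'⟩
      exact hS ⟨q, hq, (liesOverPrime_smul_iff (π g)⁻¹ 𝒜 q).1 hq'⟩
    have h1 := hc₀ ((π g)⁻¹ • 𝒜) (h.smul _) hS'
    rw [plOf_inv_smul h (hπV g)] at h1
    exact HasOrd.apply h (hπV g) h1
  have hall := ((hb.pow (x g₀ g₁).val).pow h').mul ((hc g₁).div (hc g₀))
  have hco : co (h' • ((x g₀ g₁).val • Koch.emb b)
      + (multRep (π g₁) (Additive.ofMul c₀) - multRep (π g₀) (Additive.ofMul c₀)))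
      = ((algebraMap N Qbar b) ^ (x g₀ g₁).val) ^ h' * ((π g₁) (c₀ : Qbar) / (π g₀) (c₀ : Qbar)) := by
    simp only [co_add, co_sub, co_nsmul, co_multRep, co_emb, co_ofMul]
  rw [hco]
  refine HasOrd.pDiv (Koch.Ine_le_of_isOpen_LS hopen h hS) hall ?_
  obtain ⟨A₁, hA₁⟩ := h𝔡 ⟨π g₁, hπV g₁⟩ _ hw
  obtain ⟨A₀, hA₀⟩ := h𝔡 ⟨π g₀, hπV g₀⟩ _ hw
  have hl := val_x_eq hx g₀ g₁
  simp only [hπx] at hA₁ hA₀
  rw [hl]
  refine ⟨h' * (A₁ - A₀) + h' * ord (plOf N' 𝒜 h) (algebraMap N N' (b : N)) * tOf x g₀ g₁, ?_⟩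
  linear_combination (h' : ℤ) * hA₁ - (h' : ℤ) * hA₀

end Fermat.Agent.PT.FA

end
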