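/-
S55 block FA, leaf `Retract` (ABSTRACT group theory, imports only `PT/B/CycDefs`).
A `V`-equivariant retraction `π : G → V` of an open subgroup `V`, adapted to a character cocycle `x`.
-/
import Fermat.Agent.PT.B.CycDefs

set_option autoImplicit false
set_option linter.unusedSectionVars false

namespace Fermat.Agent.PT.FA

variable {G : Type*} [Group G] {L : LevelSystem G} {p : ℕ} [Fact p.Prime]

/-- PROOF.  `r g := ((g⁻¹ : G) : G ⧸ V).out` satisfies `r g = g⁻¹ * w`, `w ∈ V`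
(`QuotientGroup.mk_out_eq_mul`) and `r (v * g) = r g` for `v ∈ V` (same left coset `g⁻¹ v⁻¹ V = g⁻¹ V`).
Put `π g := g * r g`.  Then `π g = w ∈ V`, `π (v g) = v g r g = v π g`.  If `U ≤ V` is normal in `G` then
`g u = (g u g⁻¹) g` with `g u g⁻¹ ∈ U ≤ V`, so the last claim is a special case of the second one. -/
theorem exists_retraction₀ (V : Subgroup G) :
    ∃ π : G → G, (∀ g, π g ∈ V) ∧ (∀ v ∈ V, ∀ g, π (v * g) = v * π g) ∧
      ∀ U : Subgroup G, U.Normal → U ≤ V → ∀ g, ∀ u ∈ U, π (g * u) = g * u * g⁻¹ * π g := by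
  have h2 : ∀ v ∈ V, ∀ g : G, (v * g) * (((v * g)⁻¹ : G) : G ⧸ V).out
      = v * (g * ((g⁻¹ : G) : G ⧸ V).out) := by
    intro v hv g
    have : (((v * g)⁻¹ : G) : G ⧸ V) = ((g⁻¹ : G) : G ⧸ V) := by
      rw [QuotientGroup.eq]
      simpa using hv
    rw [this, mul_assoc]
  refine ⟨fun g => g * ((g⁻¹ : G) : G ⧸ V).out, fun g => ?_, h2, fun U hU hUV g u hu => ?_⟩
  · obtain ⟨w, hw⟩ := QuotientGroup.mk_out_eq_mul V g⁻¹
    show g * ((g⁻¹ : G) : G ⧸ V).out ∈ V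
    rw [hw, mul_inv_cancel_left]
    exact w.2
  · have h3 := h2 (g * u * g⁻¹) (hUV (hU.conj_mem u hu g)) g
    rw [inv_mul_cancel_right] at h3
    exact h3

/-- PROOF.  Take `π₀` from `exists_retraction₀`, `m g := x 1 g`, `k g := (m g - m (π₀ g)).val` and
`π g := π₀ g * σ ^ k g`.
* `k (v g) = k g` for `v ∈ V` (`x_one_mul`: `m (v g) = m v + m g`, `m (v π₀ g) = m v + m (π₀ g)`), hence
  `π (v g) = v π g`;  `π g ∈ V`.
* `m (π g) = m (π₀ g) + k g • m σ + m 1 = m (π₀ g) + (m g - m (π₀ g)) = m g`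
  (`x_one_mul`, `x_one_pow` with `g = 1`, `x_one_one`, `ZMod.natCast_zmod_val`).
* level: `U₁ ∈ L` with `U₁ ≤ V` (`hV`), `U₂ ∈ L` a level of smoothness of `g ↦ x 1 g` (`smooth_x_one`),
  `U ≤ U₁ ⊓ U₂` (`L.directed'`), `U` normal (`L.normal'`).  For `u ∈ U`: `u' := g u g⁻¹ ∈ U`,
  `π₀ (g u) = u' π₀ g`, `m (g u) = m g`, `m (u' π₀ g) = m u' + m (π₀ g)` and `m u' = m (1 * u') = m 1 = 0`;
  so `k (g u) = k g` and `π (g u) = u' π g`. -/
theorem exists_retraction {V : Subgroup G} (hV : L.IsOpen V) {x : G → G → ZMod p}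
    (hx : x ∈ Z1 L V (trivZ p G)) {σ : G} (hσ : σ ∈ V) (hσ1 : x 1 σ = 1) :
    ∃ π : G → G, (∀ g, π g ∈ V) ∧ (∀ v ∈ V, ∀ g, π (v * g) = v * π g) ∧
      (∀ g, x 1 (π g) = x 1 g) ∧
      ∃ U ∈ L, U ≤ V ∧ ∀ g, ∀ u ∈ U, π (g * u) = g * u * g⁻¹ * π g := by
  obtain ⟨π₀, hπV, hπe, hπU⟩ := exists_retraction₀ V
  have hmain : ∀ v ∈ V, ∀ g, π₀ (v * g) * σ ^ (x 1 (v * g) - x 1 (π₀ (v * g))).val
      = v * (π₀ g * σ ^ (x 1 g - x 1 (π₀ g)).val) := by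
    intro v hv g
    have hk : x 1 (v * g) - x 1 (π₀ (v * g)) = x 1 g - x 1 (π₀ g) := by
      rw [hπe v hv g, x_one_mul hx hv, x_one_mul hx hv]
      ring
    rw [hk, hπe v hv g, mul_assoc]
  refine ⟨fun g => π₀ g * σ ^ (x 1 g - x 1 (π₀ g)).val,
    fun g => V.mul_mem (hπV g) (V.pow_mem hσ _), hmain, fun g => ?_, ?_⟩
  · show x 1 (π₀ g * σ ^ (x 1 g - x 1 (π₀ g)).val) = x 1 g
    have h2 := x_one_pow hx hσ (x 1 g - x 1 (π₀ g)).val 1
    rw [mul_one, x_one_one hx, add_zero, ZMod.natCast_zmod_val, hσ1, mul_one] at h2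
    rw [x_one_mul hx (hπV g), h2]
    ring
  · obtain ⟨U₁, hU₁, hU₁V⟩ := hV
    refine ⟨U₁, hU₁, hU₁V, fun g u hu => ?_⟩
    have hn := L.normal' U₁ hU₁
    have h3 := hmain (g * u * g⁻¹) (hU₁V (hn.conj_mem u hu g)) g
    rw [inv_mul_cancel_right] at h3
    exact h3

end Fermat.Agent.PT.FA
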