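/-
S55 block FA, `Phi`: construction of the `S`-smooth cochains `φ`, `η` with
    `p • η = h' • (l • b) + d0 φ`,   `l g₀ g₁ = (x g₀ g₁).val`,   `φ g = (π g) c₀`,
and (FA4) = `S`-descent of `theta b x`.
-/
import Fermat.Agent.PT.FA.Retract
import Fermat.Agent.PT.FA.DescentAbs
import Fermat.Agent.PT.FA.Capit
import Fermat.Agent.PT.FA.DivisorGal
import Fermat.Agent.PT.FA.PhiCochain
import Fermat.Agent.PT.FA.PhiLocal
import Fermat.Agent.PT.Koch.KumApi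

set_option autoImplicit false

open NumberField IsDedekindDomain Fermat.Agent.CFT Fermat.Agent.PT.Arith ExtCitation
open scoped Pointwise

noncomputable section

namespace Fermat.Agent.PT.FA

variable {S : Finset Nat.Primes} {p : ℕ} [Fact p.Prime]

variable {N : Type*} [Field N] [NumberField N] [Algebra N Qbar]
  {N' : Type*} [Field N'] [NumberField N'] [Algebra N' Qbar] [Algebra N N']
  [IsScalarTower N N' Qbar] [IsGalois N N'] {x : GQ → GQ → ZMod p}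

/-- (P4)  ASSEMBLY.  `σ` from `exists_sigma hx` (`hker`, `Vof_ne hdeg`); `π, U₀` from `exists_retraction`
(`Vof N` is `(LS S)`-open: it contains `Vof N'`, `Vof_le_of_tower`); `𝔡` from `exists_divisor_gal`; `h', c₀` from
`exists_capit hpS hopen 𝔡`; `φ g := multRep (π g) (ofMul c₀)` (`phi_mem_X0`);
`ψ := h' • (fun g₀ g₁ => (x g₀ g₁).val • emb b) + d0 φ ∈ X1` (`val_smul_mem_X1`, `Koch.multRep_emb`, `d0_mem`);
`hQ`: `InS.mul`, `.pow`, `.div`, `.apply`, `inS_algebraMap`; `hP`: `pDiv_psi`; `exists_root_cochain`. -/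
theorem exists_eta (hpS : pPrime p ∈ S) (ζ : N) (hdeg : Module.finrank N N' = p)
    (hopen : (LS S).IsOpen (Vof N')) (hx : x ∈ Z1 (LS S) (Vof N) (trivZ p GQ))
    (hker : kerOf (Vof N) x = Vof N') (b : Nˣ)
    (hb : ∀ v : Pl N, v ∉ Koch.SN N S → b ∈ NL N N' p ζ v) :
    ∃ (h' : ℕ) (η : GQ → GQ → Additive Qbarˣ) (φ : GQ → Additive Qbarˣ), ¬ p ∣ h' ∧
      η ∈ X1 (LS S) (Vof N) multRep ∧
      p • η = h' • (fun g₀ g₁ => (x g₀ g₁).val • Koch.emb b) + d0 (k := ℤ) φ := by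
  have hne : kerOf (Vof N) x ≠ Vof N := by
    rw [hker]
    exact Vof_ne hdeg
  obtain ⟨σ, hσ, hσ1⟩ := exists_sigma hx hne
  have hopenN : (LS S).IsOpen (Vof N) := by
    obtain ⟨U, hU, hUV⟩ := hopen
    exact ⟨U, hU, hUV.trans (Vof_le_of_tower N')⟩
  obtain ⟨π, hπV, hπ, hπx, U₀, hU₀, -, hπU⟩ := exists_retraction hopenN hx hσ hσ1
  obtain ⟨𝔡, h𝔡fin, h𝔡⟩ := exists_divisor_gal ζ hdeg hopen hx hker b hb
  obtain ⟨h', c₀, hh', hc₀S, hc₀⟩ := exists_capit hpS hopen 𝔡 h𝔡fin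
  set φ : GQ → Additive Qbarˣ := fun g => multRep (π g) (Additive.ofMul c₀) with hφ
  have hφX : φ ∈ X0 (LS S) (Vof N) multRep := phi_mem_X0 hπ hU₀ hπU (c := Additive.ofMul c₀) hc₀S
  set ψ : GQ → GQ → Additive Qbarˣ :=
    h' • (fun g₀ g₁ => (x g₀ g₁).val • Koch.emb b) + d0 (k := ℤ) φ with hψ
  have hψX : ψ ∈ X1 (LS S) (Vof N) multRep :=
    (X1 (LS S) (Vof N) multRep).add_mem
      ((X1 (LS S) (Vof N) multRep).nsmul_mem
        (val_smul_mem_X1 hx (fun v hv => Koch.multRep_emb hv b)) h')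
      (d0_mem hφX)
  have hψv : ∀ g₀ g₁, ψ g₀ g₁ = h' • ((x g₀ g₁).val • Koch.emb b)
      + (multRep (π g₁) (Additive.ofMul c₀) - multRep (π g₀) (Additive.ofMul c₀)) :=
    fun g₀ g₁ => rfl
  have hQ : ∀ g₀ g₁, InS S (co (ψ g₀ g₁)) := by
    intro g₀ g₁
    rw [hψv, co_add, co_nsmul, co_nsmul, co_sub, co_multRep, co_multRep, co_emb, co_ofMul]
    exact (((inS_algebraMap hopenN _).pow _).pow _).mul ((hc₀S.apply _).div (hc₀S.apply _))
  have hP : ∀ g₀ g₁, ∀ 𝒜 : Place, 𝒜.IsFin → ¬ 𝒜.OverS S → PDiv p 𝒜 (co (ψ g₀ g₁)) := by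
    intro g₀ g₁ 𝒜 h hS
    rw [hψv]
    exact pDiv_psi hopen hx hπV hπx b h𝔡 hc₀ g₀ g₁ 𝒜 h hS
  obtain ⟨η, hη, hpη⟩ := exists_root_cochain hpS hψX hQ hP
  exact ⟨h', η, φ, hh', hη, hpη⟩

/-- **(FA4) `S`-descent.** -/
theorem descent (hpS : pPrime p ∈ S) (ζ : N) (hdeg : Module.finrank N N' = p)
    (hopen : (LS S).IsOpen (Vof N')) (hx : x ∈ Z1 (LS S) (Vof N) (trivZ p GQ))
    (hker : kerOf (Vof N) x = Vof N') (b : Nˣ)
    (hb : ∀ v : Pl N, v ∉ Koch.SN N S → b ∈ NL N N' p ζ v) :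
    ∃ h' : ℕ, ¬ p ∣ h' ∧ ∃ z ∈ Z2 (LS S) (Vof N) (cycRep p),
      z - h' • (kummerQbar p).theta (Koch.emb b) x ∈ B2 Lall (Vof N) (cycRep p) := by
  obtain ⟨h', η, φ, hh', hη, hφ⟩ := exists_eta hpS ζ hdeg hopen hx hker b hb
  exact ⟨h', hh', exists_descent (LS_le_Lall S) (kummerQbar p) hx
    (fun v hv => Koch.multRep_emb hv b) h' hη φ hφ⟩

end Fermat.Agent.PT.FA

end
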