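/-
S55 block FA, `Core`: (FA) for a tower `N ⊆ N' ⊆ Qbar` (`N'/N` cyclic of degree `p`, `S`-open, no place over `S` splits).
-/
import Fermat.Agent.PT.FA.Interface
import Fermat.Agent.PT.FA.Phi
import Fermat.Agent.PT.FA.Local
import Fermat.Agent.PT.FA.Count
import Fermat.Agent.PT.B.CharExists
import Fermat.Agent.PT.Arith.FAArith
import Fermat.Agent.PT.Arith.NLNeTop

set_option autoImplicit false

open NumberField IsDedekindDomain Fermat.Agent.CFT Fermat.Agent.PT.Arith ExtCitation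
open scoped Pointwise

noncomputable section

namespace Fermat.Agent.PT.FA

/-- unbundled version of `exists_form`. -/
theorem exists_form' {p : ℕ} [Fact p.Prime] {G : Type*} [CommGroup G] {Y : Type*} [AddCommGroup Y]
    [Module (ZMod p) Y] [Finite Y] (Θ : G → Y) (hΘ : ∀ a b, Θ (a * b) = Θ a + Θ b)
    (P 𝔅 : Subgroup G) (hP : ∀ b, Θ b = 0 ↔ b ∈ P) (h : Nat.card Y ≤ P.relIndex 𝔅 * p) :
    ∃ φ : Y →ₗ[ZMod p] ZMod p, ∀ y, φ y = 0 → ∃ b ∈ 𝔅, Θ b = y := by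
  let Θ' : G →* Multiplicative Y :=
    MonoidHom.mk' (fun b => Multiplicative.ofAdd (Θ b)) (fun a b => by rw [hΘ]; rfl)
  have hker : Θ'.ker = P := by
    ext b
    rw [MonoidHom.mem_ker, ← hP]
    exact ofAdd_eq_one
  obtain ⟨φ, hφ⟩ := exists_form Θ' 𝔅 (by rw [hker]; exact h)
  refine ⟨φ, fun y hy => ?_⟩
  obtain ⟨b, hb, e⟩ := hφ y hy
  exact ⟨b, hb, Multiplicative.ofAdd.injective e⟩

/-- version for a product (stated separately: instance unification is delicate for concrete families). -/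
theorem exists_form_pi {p : ℕ} [Fact p.Prime] {G : Type*} [CommGroup G] {ι : Type*} [Finite ι]
    {Y : ι → Type*} [∀ i, AddCommGroup (Y i)] [∀ i, Module (ZMod p) (Y i)] [∀ i, Finite (Y i)]
    (Θ : G → ∀ i, Y i) (hΘ : ∀ a b, Θ (a * b) = Θ a + Θ b)
    (P 𝔅 : Subgroup G) (hP : ∀ b, Θ b = 0 ↔ b ∈ P) (h : Nat.card (∀ i, Y i) ≤ P.relIndex 𝔅 * p) :
    ∃ φ : (∀ i, Y i) →ₗ[ZMod p] ZMod p, ∀ y, φ y = 0 → ∃ b ∈ 𝔅, Θ b = y :=
  exists_form' Θ hΘ P 𝔅 hP h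

variable {N : Type*} [Field N] [NumberField N] [Algebra N Qbar] {p : ℕ} [Fact p.Prime]
  {x : GQ → GQ → ZMod p}

/-- the class of `theta b x` in `H²(D, μ_p)`, `D ≤ Vof N`. -/
def thetaCls (hx : x ∈ Z1 Lall (Vof N) (trivZ p GQ)) {D : Subgroup GQ} (hD : D ≤ Vof N) (b : Nˣ) :
    H2 Lall D (cycRep p) :=
  H2.mk Lall D (cycRep p) ⟨(kummerQbar p).theta (Koch.emb b) x,
    (kummerQbar p).theta_mem_Z2 (fun v hv => Koch.multRep_emb (hD hv) b) (Z1_le_of_le hD hx)⟩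

theorem thetaCls_eq_zero_iff (hx : x ∈ Z1 Lall (Vof N) (trivZ p GQ)) {D : Subgroup GQ}
    (hD : D ≤ Vof N) (b : Nˣ) :
    thetaCls hx hD b = 0 ↔ (kummerQbar p).theta (Koch.emb b) x ∈ B2 Lall D (cycRep p) :=
  H2.mk_eq_zero_iff _ _ _ _

theorem thetaCls_mul (hx : x ∈ Z1 Lall (Vof N) (trivZ p GQ)) {D : Subgroup GQ}
    (hD : D ≤ Vof N) (b b' : Nˣ) :
    thetaCls hx hD (b * b') = thetaCls hx hD b + thetaCls hx hD b' := by
  unfold thetaCls
  rw [← map_add, ← sub_eq_zero, ← map_sub, H2.mk_eq_zero_iff]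
  have h := (kummerQbar p).theta_add (b := Koch.emb b) (b' := Koch.emb b')
    (fun v hv => Koch.multRep_emb (hD hv) b) (fun v hv => Koch.multRep_emb (hD hv) b')
    (Z1_le_of_le hD hx)
  rw [← Koch.emb_mul] at h
  exact h

variable {ι : Type}

variable {N' : Type*} [Field N'] [NumberField N'] [Algebra N' Qbar] [Algebra N N']
  [IsScalarTower N N' Qbar] [IsGalois N N'] {ζ : N} {S : Finset Nat.Primes} {𝒜 : ι → Place}

theorem thetaCls_eq_zero_iff_mem (hζ : IsPrimitiveRoot ζ p) (hdeg : Module.finrank N N' = p)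
    (hx : x ∈ Z1 Lall (Vof N) (trivZ p GQ)) (hker : kerOf (Vof N) x = Vof N')
    (hns : ∀ 𝒜 : Place, 𝒜.OverS S → ¬ (Vof N ⊓ Dec 𝒜 ≤ Vof N'))
    (hsys : IsPlaceSystem S (Vof N) 𝒜) (b : Nˣ) :
    (fun i => thetaCls hx (inf_le_left : Vof N ⊓ Dec (𝒜 i) ≤ Vof N) b) = 0 ↔
      b ∈ ⨅ v ∈ Koch.SN N S, NL N N' p ζ v := by
  simp only [Subgroup.mem_iInf]
  rw [funext_iff]
  have h2 : ∀ i, thetaCls hx (inf_le_left : Vof N ⊓ Dec (𝒜 i) ≤ Vof N) b = 0 ↔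
      b ∈ NL N N' p ζ (plOf N (𝒜 i) (Koch.isFin_of_overS (hsys.overS i))) := fun i => by
    rw [thetaCls_eq_zero_iff]
    exact theta_mem_B2_iff_mem_NL hζ hdeg hx hker _ (hns _ (hsys.overS i)) b
  constructor
  · intro h v hv
    obtain ⟨i, rfl⟩ := Koch.placeSystem_surj hsys hv
    exact (h2 i).mp (h i)
  · intro h i
    exact (h2 i).mpr (h _ (Koch.placeSystem_mem_SN hsys i))

theorem card_le [Fintype ι] (hp2 : p ≠ 2) (hCard : LocalCardStatement p) (hpS : pPrime p ∈ S)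
    (hζ : IsPrimitiveRoot ζ p) (hdeg : Module.finrank N N' = p)
    (hopen : (LS S).IsOpen (Vof N'))
    (hns : ∀ 𝒜 : Place, 𝒜.OverS S → ¬ (Vof N ⊓ Dec 𝒜 ≤ Vof N'))
    (hsys : IsPlaceSystem S (Vof N) 𝒜) :
    Nat.card (∀ i, H2 Lall (Vof N ⊓ Dec (𝒜 i)) (cycRep p)) ≤
      (⨅ v ∈ Koch.SN N S, NL N N' p ζ v).relIndex
        (⨅ (v : Pl N) (_ : v ∉ Koch.SN N S), NL N N' p ζ v) * p := by
  classical
  have hfin : (Koch.SN N S).Finite := Koch.finite_SN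
  have hFA := FA_arith (M := N) (M' := N') p hp2 ζ hζ hdeg (Koch.SN N S) hfin
    (fun v hv => Koch.over_mem_SN hpS v hv) (unram_outside hopen)
  refine le_trans ?_ hFA
  have hopenN : Lall.IsOpen (Vof N) := by
    obtain ⟨U, hU, hle⟩ := hopen
    exact ⟨U, LS_le_Lall S hU, hle.trans (Vof_le_of_tower N')⟩
  rw [Nat.card_pi]
  have h1 : ∀ i, Nat.card (H2 Lall (Vof N ⊓ Dec (𝒜 i)) (cycRep p)) = p := fun i =>
    hCard (Vof N) hopenN (𝒜 i) (Koch.isFin_of_overS (hsys.overS i))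
  simp only [h1]
  set f : ι → Pl N := fun i => plOf N (𝒜 i) (Koch.isFin_of_overS (hsys.overS i)) with hf
  have hinj : Function.Injective f := Koch.placeSystem_injective hsys
  have himg : hfin.toFinset = Finset.univ.image f := by
    ext v
    simp only [Set.Finite.mem_toFinset, Finset.mem_image, Finset.mem_univ, true_and]
    constructor
    · intro hv
      exact Koch.placeSystem_surj hsys hv
    · rintro ⟨i, rfl⟩
      exact Koch.placeSystem_mem_SN hsys i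
  rw [himg, Finset.prod_image (fun i _ j _ hij => hinj hij)]
  refine Finset.prod_le_prod' fun i _ => ?_
  have hne : NL N N' p ζ (f i) ≠ ⊤ :=
    NL_ne_top p ζ hζ hdeg _ (not_split_plOf _ (hns _ (hsys.overS i)))
  exact Nat.le_of_dvd (Nat.pos_of_ne_zero (index_NL_ne_zero p ζ hζ _)) (dvd_index_NL p ζ _ hne)

/-- **(FA) for the tower `N ⊆ N'`.** -/
theorem core (hp2 : p ≠ 2) (hCard : LocalCardStatement p) (hpS : pPrime p ∈ S)
    (hζ : IsPrimitiveRoot ζ p) (hdeg : Module.finrank N N' = p)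
    (hopen : (LS S).IsOpen (Vof N')) (hnorm : ((Vof N').subgroupOf (Vof N)).Normal)
    (hidx : (Vof N').relIndex (Vof N) = p)
    (hns : ∀ 𝒜 : Place, 𝒜.OverS S → ¬ (Vof N ⊓ Dec 𝒜 ≤ Vof N'))
    (ι : Type) [Fintype ι] (𝒜 : ι → Place) (hsys : IsPlaceSystem S (Vof N) 𝒜) :
    ∃ φ : (∀ i, H2 Lall (Vof N ⊓ Dec (𝒜 i)) (cycRep p)) →ₗ[ZMod p] ZMod p,
      ∀ y, φ y = 0 → ∃ X : H2 (LS S) (Vof N) (cycRep p),
        ∀ i, loc2 S (Vof N) (cycRep p) (𝒜 i) X = y i := by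
  classical
  have hp : p.Prime := Fact.out
  obtain ⟨U, hU, hUle⟩ := hopen
  obtain ⟨x, hxS, hker⟩ := exists_Z1_of_relIndex (L := LS S) (p := p) hU (Vof_le_of_tower N')
    (inf_le_right.trans hUle) hnorm hidx
  have hopen : (LS S).IsOpen (Vof N') := ⟨U, hU, hUle⟩
  have hx : x ∈ Z1 Lall (Vof N) (trivZ p GQ) := Z1_le_of_level_le (LS_le_Lall S) hxS
  have hopenN : Lall.IsOpen (Vof N) := ⟨U, LS_le_Lall S hU, hUle.trans (Vof_le_of_tower N')⟩
  have hfinY : ∀ i, Finite (H2 Lall (Vof N ⊓ Dec (𝒜 i)) (cycRep p)) := fun i =>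
    Nat.finite_of_card_ne_zero (by
      rw [hCard (Vof N) hopenN (𝒜 i) (Koch.isFin_of_overS (hsys.overS i))]
      exact hp.ne_zero)
  have hcard := card_le (ζ := ζ) hp2 hCard hpS hζ hdeg hopen hns hsys
  obtain ⟨φ, hφ⟩ := exists_form_pi
    (fun (b : Nˣ) i => thetaCls hx (inf_le_left : Vof N ⊓ Dec (𝒜 i) ≤ Vof N) b)
    (fun a b => funext fun i => thetaCls_mul hx _ a b) _ _
    (thetaCls_eq_zero_iff_mem hζ hdeg hx hker hns hsys) hcard
  refine ⟨φ, fun y hy => ?_⟩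
  obtain ⟨b, hb, hby⟩ := hφ y hy
  have hb' : ∀ v : Pl N, v ∉ Koch.SN N S → b ∈ NL N N' p ζ v := fun v hv =>
    (Subgroup.mem_iInf.mp ((Subgroup.mem_iInf.mp hb) v)) hv
  obtain ⟨h', hh', z, hz, hzθ⟩ := descent hpS ζ hdeg hopen hxS hker b hb'
  have hunit : ((h' : ZMod p)) ≠ 0 := by
    rwa [Ne, ZMod.natCast_eq_zero_iff]
  refine ⟨(h' : ZMod p)⁻¹ • H2.mk (LS S) (Vof N) (cycRep p) ⟨z, hz⟩, fun i => ?_⟩
  have hyi : y i = thetaCls hx (inf_le_left : Vof N ⊓ Dec (𝒜 i) ≤ Vof N) b := by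
    exact (congrFun hby i).symm
  rw [map_smul, hyi, inv_smul_eq_iff₀ hunit, loc2, CMap.H2_mk, thetaCls, ← map_smul, ← sub_eq_zero,
    ← map_sub, H2.mk_eq_zero_iff]
  have h3 := B2_le_of_le (L := Lall) (ρ := cycRep p)
    (inf_le_left : Vof N ⊓ Dec (𝒜 i) ≤ Vof N) hzθ
  rw [← Nat.cast_smul_eq_nsmul (ZMod p)] at h3
  exact h3

end Fermat.Agent.PT.FA

end
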