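/-
S55 block FA, leaf `Fields`: from open subgroups `V'' ≤ V'` of `GQ` to number fields `N ⊆ N' ⊆ Qbar`.
-/
import Fermat.Agent.PT.Koch.Levels
import Fermat.Agent.PT.Hens.Val
import Fermat.Agent.PT.B.Galois

set_option autoImplicit false

open NumberField IsDedekindDomain Fermat.Agent.CFT ExtCitation

noncomputable section

namespace Fermat.Agent.PT.FA

variable {p : ℕ} [Fact p.Prime]

/-- PROOF.  `Koch.exists_field_of_isOpen` gives `F, F' : IntermediateField ℚ Qbar`, finite dimensional, with
`F.fixingSubgroup = V'`, `F'.fixingSubgroup = V''` (`V'` is open since it contains `V''`).  `N := F`, `N' := F'`.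
* `NumberField`: `numberField_of_finiteDimensional` (`PT/Hens/Val.lean`); `Vof F = F.fixingSubgroup`:
  `Vof_intermediateField`.
* `F ≤ F'`: `IntermediateField.le_iff_le` / `InfiniteGalois.fixedField_fixingSubgroup` and `V'' ≤ V'`;
  `Algebra F F' := (IntermediateField.inclusion hFF').toAlgebra`, `IsScalarTower F F' Qbar := .of_algebraMap_eq fun _ => rfl`.
* `IsGalois ℚ F'` since `V''` is normal (`IsGalois.of_fixedField_normal_subgroup`-type lemma for infinite Galois
  extensions: `InfiniteGalois.normal_iff_isGalois` / `IntermediateField.normal_iff_...`; see how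
  `PT/Bridge/Levels.lean` uses `IsGalois.fixingSubgroup_normal_of_isGalois`), then
  `IsGalois.tower_top_of_isGalois ℚ F F'`.
* degree: `finrank ℚ F = V'.index`, `finrank ℚ F' = V''.index` (`IntermediateField.finrank_eq_fixingSubgroup_index`),
  `V''.relIndex V' * V'.index = V''.index` (`Subgroup.relIndex_mul_index`), `Module.finrank_mul_finrank ℚ F F'`.
* `ζ := ⟨zetaP p, _⟩`: fixed by `V'` (`le_G1_iff`), hence in `F`
  (`InfiniteGalois.fixedField_fixingSubgroup`, `IntermediateField.mem_fixedField_iff`); primitive: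
  `IsPrimitiveRoot.of_map_of_injective` from `zetaP_spec` (`IsPrimitiveRoot.coe_units_iff`). -/
theorem exists_fields {V' V'' : Subgroup GQ} (hle : V'' ≤ V') (hopen : Lall.IsOpen V'')
    (hn'' : V''.Normal) (hidx : V''.relIndex V' = p) (hG1 : V' ≤ G1 p) :
    ∃ (N N' : Type) (_ : Field N) (_ : NumberField N) (_ : Algebra N Qbar) (_ : Field N')
      (_ : NumberField N') (_ : Algebra N' Qbar) (_ : Algebra N N') (_ : IsScalarTower N N' Qbar)
      (_ : IsGalois N N') (ζ : N),
      Vof N = V' ∧ Vof N' = V'' ∧ Module.finrank N N' = p ∧ IsPrimitiveRoot ζ p := by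
  have hopen' : Lall.IsOpen V' := by
    obtain ⟨U, hU, hUV⟩ := hopen
    exact ⟨U, hU, hUV.trans hle⟩
  obtain ⟨F, hFfd, hF⟩ := Koch.exists_field_of_isOpen hopen'
  obtain ⟨F', hF'fd, hF'⟩ := Koch.exists_field_of_isOpen hopen
  have hNF : NumberField F := numberField_of_finiteDimensional F
  have hNF' : NumberField F' := numberField_of_finiteDimensional F'
  have hmemF : ∀ x : Qbar, (∀ g ∈ V', g x = x) → x ∈ F := by
    intro x hx
    rw [← InfiniteGalois.fixedField_fixingSubgroup F, IntermediateField.mem_fixedField_iff, hF]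
    exact hx
  have hFF' : F ≤ F' := by
    intro x hx
    rw [← InfiniteGalois.fixedField_fixingSubgroup F', IntermediateField.mem_fixedField_iff, hF']
    intro g hg
    have hg' : g ∈ F.fixingSubgroup := by rw [hF]; exact hle hg
    exact (IntermediateField.mem_fixingSubgroup_iff F g).mp hg' x hx
  let algFF' : Algebra F F' := (IntermediateField.inclusion hFF').toRingHom.toAlgebra
  have tow : IsScalarTower F F' Qbar := IsScalarTower.of_algebraMap_eq fun _ => rfl
  have tow' : IsScalarTower ℚ F F' := IsScalarTower.of_algebraMap_eq fun _ => rfl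
  have hgalQ : IsGalois ℚ F' := by
    convert (InfiniteGalois.normal_iff_isGalois F').mp (by rw [hF']; exact hn'')
    exact Subsingleton.elim _ _
  have hgal : IsGalois F F' := IsGalois.tower_top_of_isGalois ℚ F F'
  have hζF : ((zetaP p : Qbarˣ) : Qbar) ∈ F := hmemF _ ((le_G1_iff p).mp hG1)
  refine ⟨F, F', inferInstance, hNF, inferInstance, inferInstance, hNF', inferInstance, algFF', tow,
    hgal, ⟨_, hζF⟩, ?_, ?_, ?_, ?_⟩
  · rw [Vof_intermediateField, hF]
  · rw [Vof_intermediateField, hF']
  · have h1 : Module.finrank ℚ F = V'.index := by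
      rw [IntermediateField.finrank_eq_fixingSubgroup_index, hF]
    have h2 : Module.finrank ℚ F' = V''.index := by
      rw [IntermediateField.finrank_eq_fixingSubgroup_index, hF']
    have h3 := Module.finrank_mul_finrank ℚ F F'
    have h4 := Subgroup.relIndex_mul_index hle
    rw [h1, h2, ← h4, hidx, mul_comm] at h3
    have h5 : V'.index ≠ 0 := by
      rw [← h1]
      exact Module.finrank_pos.ne'
    exact Nat.eq_of_mul_eq_mul_right (Nat.pos_of_ne_zero h5) h3
  · exact IsPrimitiveRoot.of_map_of_injective (f := algebraMap F Qbar)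
      (IsPrimitiveRoot.coe_units_iff.mpr (zetaP_spec p)) (algebraMap F Qbar).injective

end Fermat.Agent.PT.FA

end
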