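/-
S55 block FA, `Main`: the contract `FACofinalStatement p` from `LocalCardStatement p` (block L).
(`CycLayerStatement p` is `cycLayer p hp2`, `PT/Global/CycLayer.lean`; the tower case is `FA.core`, `PT/FA/Core.lean`.)
-/
import Fermat.Agent.PT.FA.Core
import Fermat.Agent.PT.FA.Fields
import Fermat.Agent.PT.Global.CycLayer

set_option autoImplicit false

open NumberField IsDedekindDomain Fermat.Agent.CFT Fermat.Agent.PT.Arith ExtCitation
open scoped Pointwise

noncomputable section

namespace Fermat.Agent.PT.FA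

variable {p : ℕ} [Fact p.Prime]

/-- **Block FA**, with the cyclotomic layer as a hypothesis. -/
theorem faCofinal_of_cycLayer (hp2 : p ≠ 2) (hCyc : CycLayerStatement p)
    (hCard : LocalCardStatement p) : FACofinalStatement p := by
  intro S hpS V hV hVG
  obtain ⟨V', V'', hle, hV'V, hopen, hn', hn'', hidx, hns⟩ := hCyc S hpS V hV hVG
  obtain ⟨N, N', _, _, _, _, _, _, _, _, _, ζ, rfl, rfl, hdeg, hζ⟩ :=
    exists_fields hle (Koch.isOpen_Lall_of_isOpen_LS hopen) hn'' hidx (hV'V.trans hVG)
  have hnorm : ((Vof N').subgroupOf (Vof N)).Normal := inferInstance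
  refine ⟨Vof N, hV'V, ?_, hn', fun ι _ 𝒜 hsys =>
    core hp2 hCard hpS hζ hdeg hopen hnorm hidx hns ι 𝒜 hsys⟩
  obtain ⟨U, hU, hUle⟩ := hopen
  exact ⟨U, hU, hUle.trans hle⟩

/-- **(FA), cofinal form.** -/
theorem faCofinal (hp2 : p ≠ 2) (hLC : LocalCardStatement p) : FACofinalStatement p :=
  faCofinal_of_cycLayer hp2 (cycLayer p hp2) hLC

end Fermat.Agent.PT.FA

end
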